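/-
Program J, chapter J4 (EIG), integral form — helper9.

`Λ` a finite free `ℤ`-module with a faithful action `T : R →+* End_ℤ Λ` of a commutative ring `R`
(or only `ker T ≤ ker χ`), `𝒪` a domain of characteristic zero, `χ : R →+* 𝒪` a character, `M` an
`𝒪`-module with a `ℤ`-linear map `ι : Λ → M` exhibiting `M` as the base change `𝒪 ⊗[ℤ] Λ`.  Then `M`
contains a nonzero `χ`-eigenvector: a vector `w ≠ 0` such that every `𝒪`-linear extension `F` of an
operator `T r` satisfies `F w = χ r • w`.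

This is the integral form of helper10's `EigenExists10.exists_eigenvector_baseChange` (which produces
the eigenvector in `K ⊗[ℤ] Λ`, `K = Frac 𝒪`): clear denominators along `M → K ⊗[ℤ] Λ`.

In the application: `R := heckeAlgebra N 2 S`, `T := FaithInst26.heckeLatticeHom` (injective),
`Λ := parabolicHoms ℤ Γ₀(N) ℤ`, `M := 𝒪' ⊗[ℤ_p] T_p J₀(N)`, `F := (tT ℓ).baseChange 𝒪'`.
-/
import Mathlib
import Fermat.Agent.ES.GAL.EigenExists10

set_option autoImplicit false

namespace Fermat.Agent.ES.ALG.EigenNonzero9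

open Module TensorProduct

variable {𝒪 : Type*} [CommRing 𝒪] [IsDomain 𝒪] [CharZero 𝒪]
variable {M : Type*} [AddCommGroup M] [Module 𝒪 M]
variable {Λ : Type*} [AddCommGroup Λ] [Module.Free ℤ Λ] [Module.Finite ℤ Λ]
variable {R : Type*} [CommRing R]

/-- Auxiliary form with an explicit fraction field. -/
theorem exists_eigenvector_of_isBaseChange_aux (K : Type*) [Field K] [Algebra 𝒪 K]
    [IsFractionRing 𝒪 K] (ι : Λ →ₗ[ℤ] M) (hι : IsBaseChange 𝒪 ι)
    (T : R →+* Module.End ℤ Λ) (hT : Function.Injective T) (χ : R →+* 𝒪) :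
    ∃ w : M, w ≠ 0 ∧ ∀ (r : R) (F : Module.End 𝒪 M), (∀ x, F (ι x) = ι (T r x)) →
      F w = χ r • w := by
  classical
  have hinj : Function.Injective (algebraMap 𝒪 K) := IsFractionRing.injective 𝒪 K
  have : CharZero K := charZero_of_injective_algebraMap hinj
  obtain ⟨v, hv, hev⟩ := Fermat.Agent.ES.GAL.EigenExists10.exists_eigenvector_baseChange
    (K := K) T hT ((algebraMap 𝒪 K).comp χ)
  -- the comparison map `j : M → K ⊗ Λ`
  let ιK : Λ →ₗ[ℤ] K ⊗[ℤ] Λ := TensorProduct.mk ℤ K Λ 1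
  let j : M →ₗ[𝒪] K ⊗[ℤ] Λ := hι.lift ιK
  have hjι : ∀ x, j (ι x) = (1 : K) ⊗ₜ[ℤ] x := fun x => hι.lift_eq ιK x
  have hjK : IsBaseChange K j := by
    refine IsBaseChange.of_comp hι ?_
    have e : ((j : M →ₗ[𝒪] K ⊗[ℤ] Λ).restrictScalars ℤ) ∘ₗ ι = ιK := hι.lift_comp ιK
    rw [e]
    exact TensorProduct.isBaseChange ℤ Λ K
  have hloc : IsLocalizedModule (nonZeroDivisors 𝒪) j :=
    (isLocalizedModule_iff_isBaseChange (nonZeroDivisors 𝒪) K j).mpr hjK
  have : Module.Free 𝒪 M := hι.free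
  have hjinj : Function.Injective j := by
    rw [← LinearMap.ker_eq_bot, LinearMap.ker_eq_bot']
    intro m hm
    have h0 : j m = j 0 := by rw [hm, map_zero]
    obtain ⟨s, hs⟩ := (IsLocalizedModule.eq_iff_exists (nonZeroDivisors 𝒪) j).mp h0
    rw [smul_zero] at hs
    rcases smul_eq_zero.mp hs with h | h
    · exact absurd h (nonZeroDivisors.ne_zero s.2)
    · exact h
  obtain ⟨⟨w, s⟩, hs⟩ := IsLocalizedModule.surj (nonZeroDivisors 𝒪) j v
  have hs' : (s : 𝒪) • v = j w := hs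
  have hsK : algebraMap 𝒪 K (s : 𝒪) ≠ 0 := fun h =>
    nonZeroDivisors.ne_zero s.2 ((map_eq_zero_iff _ hinj).mp h)
  refine ⟨w, ?_, fun r F hF => ?_⟩
  · rintro rfl
    rw [map_zero, ← algebraMap_smul K (s : 𝒪) v] at hs'
    rcases smul_eq_zero.mp hs' with h | h
    · exact hsK h
    · exact hv h
  · apply hjinj
    have hcomm : ∀ m, j (F m) = (T r).baseChange K (j m) := by
      have := hι.algHom_ext (j ∘ₗ F)
        ((((T r).baseChange K).restrictScalars 𝒪) ∘ₗ j) (fun x => by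
          simp only [LinearMap.coe_comp, Function.comp_apply, LinearMap.coe_restrictScalars]
          rw [hF, hjι, hjι, LinearMap.baseChange_tmul])
      exact fun m => LinearMap.congr_fun this m
    rw [hcomm, map_smul j, ← hs', ← algebraMap_smul K (s : 𝒪) v, map_smul, hev r,
      RingHom.comp_apply, smul_comm, algebraMap_smul]

/-- **J4 (EIG), integral form, faithful action.**  `M = 𝒪 ⊗[ℤ] Λ` (via `ι`) contains a nonzero
`χ`-eigenvector. -/
theorem exists_eigenvector_of_isBaseChange (ι : Λ →ₗ[ℤ] M) (hι : IsBaseChange 𝒪 ι)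
    (T : R →+* Module.End ℤ Λ) (hT : Function.Injective T) (χ : R →+* 𝒪) :
    ∃ w : M, w ≠ 0 ∧ ∀ (r : R) (F : Module.End 𝒪 M), (∀ x, F (ι x) = ι (T r x)) →
      F w = χ r • w :=
  exists_eigenvector_of_isBaseChange_aux (FractionRing 𝒪) ι hι T hT χ

/-- **J4 (EIG), integral form**, assuming only `ker T ≤ ker χ`. -/
theorem exists_eigenvector_of_isBaseChange_of_ker (ι : Λ →ₗ[ℤ] M) (hι : IsBaseChange 𝒪 ι)
    (T : R →+* Module.End ℤ Λ) (χ : R →+* 𝒪) (hker : ∀ r, T r = 0 → χ r = 0) :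
    ∃ w : M, w ≠ 0 ∧ ∀ (r : R) (F : Module.End 𝒪 M), (∀ x, F (ι x) = ι (T r x)) →
      F w = χ r • w := by
  let T' : R ⧸ RingHom.ker T →+* Module.End ℤ Λ := RingHom.kerLift T
  have hT' : Function.Injective T' := RingHom.kerLift_injective T
  let χ' : R ⧸ RingHom.ker T →+* 𝒪 :=
    Ideal.Quotient.lift (RingHom.ker T) χ fun r hr => hker r ((RingHom.mem_ker).mp hr)
  obtain ⟨w, hw, h⟩ := exists_eigenvector_of_isBaseChange ι hι T' hT' χ'
  refine ⟨w, hw, fun r F hF => ?_⟩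
  have := h (Ideal.Quotient.mk _ r) F (fun x => by rw [hF x]; rfl)
  rw [this]
  rfl

/-- The tensor product form: `M := 𝒪 ⊗[ℤ] Λ`, `F := (T r).baseChange 𝒪`. -/
theorem exists_eigenvector_tensor (T : R →+* Module.End ℤ Λ) (hT : Function.Injective T)
    (χ : R →+* 𝒪) :
    ∃ w : 𝒪 ⊗[ℤ] Λ, w ≠ 0 ∧ ∀ r : R, (T r).baseChange 𝒪 w = χ r • w := by
  obtain ⟨w, hw, h⟩ := exists_eigenvector_of_isBaseChange (TensorProduct.mk ℤ 𝒪 Λ 1)
    (TensorProduct.isBaseChange ℤ Λ 𝒪) T hT χ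
  exact ⟨w, hw, fun r => h r ((T r).baseChange 𝒪) fun x => LinearMap.baseChange_tmul _ _ _⟩

end Fermat.Agent.ES.ALG.EigenNonzero9
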