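/-
Program J (spare, pure algebra) — helper9.

**The involution lemma (INV).**  Let `k` be a field with `2 ≠ 0`, `G` a group, `ρ : G →* End k V` a
finite-dimensional representation whose image spans `End k V` (Burnside: `V` absolutely
irreducible), `d : G →* kˣ` a character and `a : G → k` a function such that

  `ρ g + d g • ρ g⁻¹ = a g • 1`   for every `g`       (i.e. `g² - a(g) g + d(g) = 0` on `V`).

Then `dim V ≤ 2`, and if `dim V = 2` then `tr ρ g = a g` and `det ρ g = d g` for EVERY `g`
(including those acting as scalars), hence `charpoly (ρ g) = X² - a(g) X + d(g)`.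

Use: `g` ranges over a Galois group, `d` = cyclotomic character, the hypothesis comes from the
Eichler–Shimura relation `σ² - T_ℓ σ + ℓ = 0` for Frobenius elements + density + continuity.
No determinant / Weil pairing / multiplicity-one input is needed.
-/
import Mathlib

set_option autoImplicit false

namespace Fermat.Agent.ES.ALG.InvLemma9

open Module

variable {k : Type*} [Field k] {V : Type*} [AddCommGroup V] [Module k V]

/-- `r` is a scalar endomorphism. -/
def IsScal (r : End k V) : Prop := ∃ c : k, r = c • (1 : End k V)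

theorem isScal_smul_one (c : k) : IsScal (c • (1 : End k V)) := ⟨c, rfl⟩

theorem IsScal.add {r s : End k V} (hr : IsScal r) (hs : IsScal s) : IsScal (r + s) := by
  obtain ⟨c, rfl⟩ := hr
  obtain ⟨e, rfl⟩ := hs
  exact ⟨c + e, by rw [add_smul]⟩

theorem IsScal.smul {r : End k V} (hr : IsScal r) (c : k) : IsScal (c • r) := by
  obtain ⟨e, rfl⟩ := hr
  exact ⟨c * e, by rw [mul_smul]⟩

theorem isScal_zero : IsScal (0 : End k V) := ⟨0, by rw [zero_smul]⟩

/-! ### Linear algebra: quadratic relations -/

section LinAlg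

variable [FiniteDimensional k V]

/-- If every endomorphism of `V` is killed by a monic quadratic polynomial, then `dim V ≤ 2`. -/
theorem finrank_le_two_of_forall_quadratic
    (hq : ∀ r : End k V, ∃ s c : k, r * r - s • r + c • (1 : End k V) = 0) :
    finrank k V ≤ 2 := by
  by_contra hlt
  have h3 : 3 ≤ finrank k V := by omega
  set n := finrank k V with hn
  let b : Basis (Fin n) k V := Module.finBasis k V
  let i0 : Fin n := ⟨0, by omega⟩
  let i1 : Fin n := ⟨1, by omega⟩
  let i2 : Fin n := ⟨2, by omega⟩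
  have h01 : i0 ≠ i1 := by simp [i0, i1, Fin.ext_iff]
  have h02 : i0 ≠ i2 := by simp [i0, i2, Fin.ext_iff]
  have h12 : i1 ≠ i2 := by simp [i1, i2, Fin.ext_iff]
  let N : End k V := b.constr k fun i => if i = i0 then b i1 else if i = i1 then b i2 else 0
  have hN0 : N (b i0) = b i1 := by
    simp only [N, Basis.constr_basis, if_true]
  have hN1 : N (b i1) = b i2 := by
    simp only [N, Basis.constr_basis]
    rw [if_neg h01.symm]
    simp
  obtain ⟨s, c, hsc⟩ := hq N
  have h := congrArg (fun f : End k V => b.repr (f (b i0)) i2) hsc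
  simp only [LinearMap.add_apply, LinearMap.sub_apply, LinearMap.smul_apply, Module.End.mul_apply,
    Module.End.one_apply, LinearMap.zero_apply, hN0, hN1, map_add, map_sub, map_smul, map_zero,
    Finsupp.coe_add, Finsupp.coe_sub, Finsupp.coe_smul, Pi.add_apply, Pi.sub_apply, Pi.smul_apply,
    Basis.repr_self, Finsupp.single_eq_same, Finsupp.coe_zero, Pi.zero_apply, smul_eq_mul] at h
  rw [Finsupp.single_eq_of_ne (by exact h12.symm), Finsupp.single_eq_of_ne (by exact h02.symm)] at h
  simp at h

/-- In dimension two a non-scalar endomorphism killed by `X² - sX + c` has trace `s` and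
determinant `c`. -/
theorem trace_det_of_quadratic (hV : finrank k V = 2) {r : End k V} (hr : ¬ IsScal r) {s c : k}
    (hsc : r * r - s • r + c • (1 : End k V) = 0) :
    LinearMap.trace k V r = s ∧ LinearMap.det r = c := by
  let b : Basis (Fin 2) k V := Module.finBasisOfFinrankEq k V hV
  set M : Matrix (Fin 2) (Fin 2) k := LinearMap.toMatrix b b r with hM
  have htr : LinearMap.trace k V r = M.trace := LinearMap.trace_eq_matrix_trace k b r
  have hdet : LinearMap.det r = M.det := (LinearMap.det_toMatrix b r).symm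
  -- the relation for `M`
  have hrel : M * M - s • M + c • (1 : Matrix (Fin 2) (Fin 2) k) = 0 := by
    have := congrArg (LinearMap.toMatrix b b) hsc
    simpa [hM, LinearMap.toMatrix_mul, LinearMap.toMatrix_one, Module.End.mul_eq_comp,
      LinearMap.toMatrix_comp b b b] using this
  -- Cayley–Hamilton
  have hCH : M * M - M.trace • M + M.det • (1 : Matrix (Fin 2) (Fin 2) k) = 0 := by
    have h := Matrix.aeval_self_charpoly M
    rw [Matrix.charpoly_fin_two] at h
    simpa [pow_two, Algebra.algebraMap_eq_smul_one, smul_mul_assoc] using h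
  have hdiff : (M.trace - s) • M = (M.det - c) • (1 : Matrix (Fin 2) (Fin 2) k) := by
    have h := sub_eq_zero.mpr (hrel.trans hCH.symm)
    rw [sub_smul, sub_smul]
    have h' : M * M - s • M + c • (1 : Matrix (Fin 2) (Fin 2) k) -
        (M * M - M.trace • M + M.det • (1 : Matrix (Fin 2) (Fin 2) k)) = 0 := h
    have : M.trace • M - s • M - (M.det • (1 : Matrix (Fin 2) (Fin 2) k) - c • 1) = 0 := by
      rw [← h']; abel
    exact sub_eq_zero.mp this
  have hts : M.trace = s := by
    by_contra hne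
    apply hr
    refine ⟨(M.trace - s)⁻¹ * (M.det - c), ?_⟩
    apply (LinearMap.toMatrix b b).injective
    rw [map_smul, LinearMap.toMatrix_one, ← hM, mul_smul, ← hdiff, smul_smul,
      inv_mul_cancel₀ (sub_ne_zero.mpr hne), one_smul]
  refine ⟨htr.trans hts, hdet.trans ?_⟩
  rw [hts, sub_self, zero_smul] at hdiff
  have h00 := congrFun (congrFun hdiff 0) 0
  simp only [Matrix.zero_apply, Matrix.smul_apply, Matrix.one_apply_eq, smul_eq_mul, mul_one] at h00
  exact (sub_eq_zero.mp h00.symm)

/-- In dimension two there is a non-scalar endomorphism. -/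
theorem exists_not_isScal (hV : finrank k V = 2) : ∃ r : End k V, ¬ IsScal r := by
  let b : Basis (Fin 2) k V := Module.finBasisOfFinrankEq k V hV
  refine ⟨b.constr k fun i => if i = 0 then b 1 else 0, ?_⟩
  rintro ⟨c, hc⟩
  have h := congrArg (fun f : End k V => b.repr (f (b 0)) 1) hc
  simp only [Basis.constr_basis, if_true, Basis.repr_self, Finsupp.single_eq_same,
    LinearMap.smul_apply, Module.End.one_apply, map_smul, Finsupp.coe_smul, Pi.smul_apply,
    smul_eq_mul] at h
  rw [Finsupp.single_eq_of_ne (by decide)] at h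
  simp at h

end LinAlg

/-! ### The pairs `(Σ cᵢ ρ(gᵢ), Σ cᵢ d(gᵢ) ρ(gᵢ)⁻¹)` -/

section Pairs

variable {G : Type*} [Group G] (ρ : G →* End k V) (d : G →* kˣ)

/-- The span of the pairs `(ρ g, d g • ρ g⁻¹)`: the graph of the would-be anti-involution. -/
def pairs : Submodule k (End k V × End k V) :=
  Submodule.span k (Set.range fun g : G => (ρ g, ((d g : kˣ) : k) • ρ g⁻¹))

variable {ρ d}

theorem pairs_add_isScal {a : G → k}
    (h : ∀ g, ρ g + ((d g : kˣ) : k) • ρ g⁻¹ = a g • (1 : End k V))
    {w : End k V × End k V} (hw : w ∈ pairs ρ d) : IsScal (w.1 + w.2) := by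
  induction hw using Submodule.span_induction with
  | mem x hx =>
    obtain ⟨g, rfl⟩ := hx
    exact ⟨a g, h g⟩
  | zero => simpa using isScal_zero
  | add x y _ _ hx hy =>
    have : (x + y).1 + (x + y).2 = (x.1 + x.2) + (y.1 + y.2) := by
      simp only [Prod.fst_add, Prod.snd_add]; abel
    rw [this]; exact hx.add hy
  | smul c x _ hx =>
    have : (c • x).1 + (c • x).2 = c • (x.1 + x.2) := by
      simp only [Prod.smul_fst, Prod.smul_snd, smul_add]
    rw [this]; exact hx.smul c

theorem pairs_mul_isScal {a : G → k}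
    (h : ∀ g, ρ g + ((d g : kˣ) : k) • ρ g⁻¹ = a g • (1 : End k V))
    {w₁ w₂ : End k V × End k V} (hw₁ : w₁ ∈ pairs ρ d) (hw₂ : w₂ ∈ pairs ρ d) :
    IsScal (w₁.1 * w₂.1 + w₂.2 * w₁.2) := by
  induction hw₁, hw₂ using Submodule.span_induction₂ with
  | mem_mem x y hx hy =>
    obtain ⟨g, rfl⟩ := hx
    obtain ⟨g', rfl⟩ := hy
    refine ⟨a (g * g'), ?_⟩
    rw [← h (g * g')]
    simp only [map_mul, mul_inv_rev, Units.val_mul, smul_mul_smul_comm]
    rw [mul_comm ((d g' : kˣ) : k)]
  | zero_left y _ => simpa using isScal_zero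
  | zero_right x _ => simpa using isScal_zero
  | add_left x y z _ _ _ hx hy =>
    have : (x + y).1 * z.1 + z.2 * (x + y).2 = (x.1 * z.1 + z.2 * x.2) + (y.1 * z.1 + z.2 * y.2) := by
      simp only [Prod.fst_add, Prod.snd_add, add_mul, mul_add]; abel
    rw [this]; exact hx.add hy
  | add_right x y z _ _ _ hx hy =>
    have : x.1 * (y + z).1 + (y + z).2 * x.2 = (x.1 * y.1 + y.2 * x.2) + (x.1 * z.1 + z.2 * x.2) := by
      simp only [Prod.fst_add, Prod.snd_add, add_mul, mul_add]; abel
    rw [this]; exact hx.add hy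
  | smul_left c x y _ _ hx =>
    have : (c • x).1 * y.1 + y.2 * (c • x).2 = c • (x.1 * y.1 + y.2 * x.2) := by
      simp only [Prod.smul_fst, Prod.smul_snd, smul_mul_assoc, mul_smul_comm, smul_add]
    rw [this]; exact hx.smul c
  | smul_right c x y _ _ hx =>
    have : x.1 * (c • y).1 + (c • y).2 * x.2 = c • (x.1 * y.1 + y.2 * x.2) := by
      simp only [Prod.smul_fst, Prod.smul_snd, smul_mul_assoc, mul_smul_comm, smul_add]
    rw [this]; exact hx.smul c

theorem exists_mem_pairs (hspan : Submodule.span k (Set.range ρ) = ⊤) (r : End k V) :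
    ∃ r' : End k V, (r, r') ∈ pairs ρ d := by
  have hr : r ∈ Submodule.span k (Set.range ρ) := by rw [hspan]; trivial
  induction hr using Submodule.span_induction with
  | mem x hx =>
    obtain ⟨g, rfl⟩ := hx
    exact ⟨((d g : kˣ) : k) • ρ g⁻¹, Submodule.subset_span ⟨g, rfl⟩⟩
  | zero => exact ⟨0, (pairs ρ d).zero_mem⟩
  | add x y _ _ hx hy =>
    obtain ⟨x', hx'⟩ := hx
    obtain ⟨y', hy'⟩ := hy
    exact ⟨x' + y', (pairs ρ d).add_mem hx' hy'⟩
  | smul c x _ hx =>
    obtain ⟨x', hx'⟩ := hx
    exact ⟨c • x', (pairs ρ d).smul_mem c hx'⟩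

end Pairs

/-! ### The involution lemma -/

section Main

variable {G : Type*} [Group G] {ρ : G →* End k V} {d : G →* kˣ} {a : G → k}

/-- Every endomorphism in the first projection of `pairs` satisfies a monic quadratic relation,
whose linear coefficient is the scalar `w.1 + w.2`. -/
theorem quadratic_of_mem_pairs (h2 : (2 : k) ≠ 0)
    (h : ∀ g, ρ g + ((d g : kˣ) : k) • ρ g⁻¹ = a g • (1 : End k V))
    {w : End k V × End k V} (hw : w ∈ pairs ρ d) {s : k} (hs : w.1 + w.2 = s • (1 : End k V)) :
    ∃ c : k, w.1 * w.1 - s • w.1 + c • (1 : End k V) = 0 := by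
  obtain ⟨e, he⟩ := pairs_mul_isScal h hw hw
  have hw2 : w.2 = s • (1 : End k V) - w.1 := eq_sub_of_add_eq' hs
  refine ⟨(s * s - e) / 2, ?_⟩
  have h1 : w.1 * w.1 + (s • (1 : End k V) - w.1) * (s • (1 : End k V) - w.1) = e • 1 := by
    rw [← hw2]; exact he
  have h3 : (2 : k) • (w.1 * w.1 - s • w.1 + ((s * s - e) / 2) • (1 : End k V)) = 0 := by
    have : (2 : k) • (w.1 * w.1 - s • w.1 + ((s * s - e) / 2) • (1 : End k V)) =
        (w.1 * w.1 + (s • (1 : End k V) - w.1) * (s • (1 : End k V) - w.1)) - e • 1 := by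
      rw [smul_add, smul_sub, smul_smul, smul_smul, mul_div_cancel₀ _ h2, sub_smul, mul_smul,
        two_smul, two_smul]
      simp only [sub_mul, mul_sub, smul_mul_assoc, mul_smul_comm, one_mul, mul_one, smul_sub,
        smul_smul]
      abel
    rw [this, h1, sub_self]
  exact (smul_eq_zero.mp h3).resolve_left h2

variable [FiniteDimensional k V]

/-- **(INV), dimension bound.** -/
theorem finrank_le_two (h2 : (2 : k) ≠ 0) (hspan : Submodule.span k (Set.range ρ) = ⊤)
    (h : ∀ g, ρ g + ((d g : kˣ) : k) • ρ g⁻¹ = a g • (1 : End k V)) :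
    finrank k V ≤ 2 := by
  refine finrank_le_two_of_forall_quadratic fun r => ?_
  obtain ⟨r', hr'⟩ := exists_mem_pairs (d := d) hspan r
  obtain ⟨s, hs⟩ := pairs_add_isScal h hr'
  obtain ⟨c, hc⟩ := quadratic_of_mem_pairs h2 h hr' hs
  exact ⟨s, c, hc⟩

/-- For a pair with non-scalar first component (in dimension two), the scalar `w.1 + w.2` is the
trace of `w.1`. -/
theorem add_eq_trace_of_mem_pairs (h2 : (2 : k) ≠ 0) (hV : finrank k V = 2)
    (h : ∀ g, ρ g + ((d g : kˣ) : k) • ρ g⁻¹ = a g • (1 : End k V))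
    {w : End k V × End k V} (hw : w ∈ pairs ρ d) (hns : ¬ IsScal w.1) :
    w.1 + w.2 = LinearMap.trace k V w.1 • (1 : End k V) := by
  obtain ⟨s, hs⟩ := pairs_add_isScal h hw
  obtain ⟨c, hc⟩ := quadratic_of_mem_pairs h2 h hw hs
  rw [(trace_det_of_quadratic hV hns hc).1]
  exact hs

/-- **(INV), trace.** In dimension two, `tr ρ g = a g` for every `g`. -/
theorem trace_eq (h2 : (2 : k) ≠ 0) (hspan : Submodule.span k (Set.range ρ) = ⊤)
    (h : ∀ g, ρ g + ((d g : kˣ) : k) • ρ g⁻¹ = a g • (1 : End k V))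
    (hV : finrank k V = 2) (g : G) : LinearMap.trace k V (ρ g) = a g := by
  have h1ne : (1 : End k V) ≠ 0 := by
    have : Nontrivial V := Module.nontrivial_of_finrank_pos (R := k) (by omega)
    exact one_ne_zero
  have hinj : ∀ x y : k, x • (1 : End k V) = y • 1 → x = y := fun x y hxy => by
    have := sub_eq_zero.mpr hxy
    rw [← sub_smul] at this
    exact sub_eq_zero.mp ((smul_eq_zero.mp this).resolve_right h1ne)
  have hg : (ρ g, ((d g : kˣ) : k) • ρ g⁻¹) ∈ pairs ρ d := Submodule.subset_span ⟨g, rfl⟩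
  by_cases hns : IsScal (ρ g)
  · -- scalar case: add a non-scalar element
    obtain ⟨r₀, hr₀⟩ := exists_not_isScal (k := k) (V := V) hV
    obtain ⟨r₀', hr₀'⟩ := exists_mem_pairs (d := d) hspan r₀
    have hsum : (ρ g + r₀, ((d g : kˣ) : k) • ρ g⁻¹ + r₀') ∈ pairs ρ d :=
      (pairs ρ d).add_mem hg hr₀'
    have hns' : ¬ IsScal (ρ g + r₀) := by
      intro hsc
      apply hr₀
      obtain ⟨c, hc⟩ := hns
      obtain ⟨e, he⟩ := hsc
      exact ⟨e - c, by rw [sub_smul, ← he, ← hc]; abel⟩
    have e1 := add_eq_trace_of_mem_pairs h2 hV h hsum hns'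
    have e2 := add_eq_trace_of_mem_pairs h2 hV h hr₀' hr₀
    simp only at e1 e2
    have e3 : (ρ g + ((d g : kˣ) : k) • ρ g⁻¹) + (r₀ + r₀') =
        (LinearMap.trace k V (ρ g) + LinearMap.trace k V r₀) • (1 : End k V) := by
      rw [← map_add, ← e1]; abel
    rw [e2, h g, add_smul] at e3
    exact (hinj _ _ (add_right_cancel e3)).symm
  · have e1 := add_eq_trace_of_mem_pairs h2 hV h hg hns
    simp only at e1
    rw [h g] at e1
    exact (hinj _ _ e1).symm

/-- **(INV), determinant.** In dimension two, `det ρ g = d g` for every `g`. -/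
theorem det_eq (h2 : (2 : k) ≠ 0) (hspan : Submodule.span k (Set.range ρ) = ⊤)
    (h : ∀ g, ρ g + ((d g : kˣ) : k) • ρ g⁻¹ = a g • (1 : End k V))
    (hV : finrank k V = 2) (g : G) : LinearMap.det (ρ g) = ((d g : kˣ) : k) := by
  have htr := trace_eq h2 hspan h hV g
  -- `ρ g² - a g ρ g + d g = 0`
  have hrel : ρ g * ρ g - a g • ρ g + ((d g : kˣ) : k) • (1 : End k V) = 0 := by
    have hmul : ρ g * ρ g⁻¹ = 1 := by rw [← map_mul, mul_inv_cancel, map_one]
    have := congrArg (fun x => ρ g * x) (h g)
    simp only [mul_add, mul_smul_comm, hmul, mul_one] at this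
    rw [← this]; abel
  by_cases hns : IsScal (ρ g)
  · obtain ⟨c, hc⟩ := hns
    have h1ne : (1 : End k V) ≠ 0 := by
      have : Nontrivial V := Module.nontrivial_of_finrank_pos (R := k) (by omega)
      exact one_ne_zero
    have htr' : a g = 2 * c := by
      rw [← htr, hc, map_smul, LinearMap.trace_one, hV]; simp [mul_comm]
    have hdet : LinearMap.det (ρ g) = c * c := by
      rw [hc, LinearMap.det_smul, hV, map_one, mul_one, pow_two]
    rw [hc] at hrel
    have : (c * c - a g * c + ((d g : kˣ) : k)) • (1 : End k V) = 0 := by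
      rw [← hrel]
      simp only [smul_mul_assoc, mul_smul_comm, one_mul, smul_smul, add_smul, sub_smul]
    have h0 := (smul_eq_zero.mp this).resolve_right h1ne
    rw [hdet]
    rw [htr'] at h0
    linear_combination (-1 : k) * h0
  · exact (trace_det_of_quadratic hV hns hrel).2

open Polynomial in
/-- **(INV), characteristic polynomial.** -/
theorem charpoly_eq (h2 : (2 : k) ≠ 0) (hspan : Submodule.span k (Set.range ρ) = ⊤)
    (h : ∀ g, ρ g + ((d g : kˣ) : k) • ρ g⁻¹ = a g • (1 : End k V))
    (hV : finrank k V = 2) (g : G) :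
    LinearMap.charpoly (ρ g) = X ^ 2 - C (a g) * X + C (((d g : kˣ) : k)) := by
  let b : Basis (Fin 2) k V := Module.finBasisOfFinrankEq k V hV
  rw [← LinearMap.charpoly_toMatrix (ρ g) b, Matrix.charpoly_fin_two,
    ← LinearMap.trace_eq_matrix_trace k b, LinearMap.det_toMatrix b, trace_eq h2 hspan h hV g,
    det_eq h2 hspan h hV g]

end Main

end Fermat.Agent.ES.ALG.InvLemma9
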