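/-
Program J, chapter J5 (pure algebra) — helper9.

**(INV-ODD).**  `k` a field with `2 ≠ 0`, `ρ : G →* End k V` finite-dimensional and IRREDUCIBLE over `k`
(not necessarily absolutely irreducible), `d : G →* kˣ`, `a : G → k` with

  `ρ g + d g • ρ g⁻¹ = a g • 1`  for all `g`,

and one element `c ∈ G` with `c * c = 1`, `d c = -1` (complex conjugation and the cyclotomic
character).  Then `dim V ≤ 2`; if `dim V = 2` then `charpoly (ρ g) = X² - a(g) X + d(g)` for all `g`;
if `dim V = 1` then `ρ = ψ • 1` for a character `ψ` with `ψ + d ψ⁻¹ = a`.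

No Burnside / Jacobson density / Schur index / extension of scalars is used: the idempotents
`e = (1 + ρ c)/2`, `e' = (1 - ρ c)/2` are exchanged by the anti-involution `g ↦ d(g) g⁻¹`, which forces
`e A e = k e` for the image algebra `A`.
-/
import Mathlib
import Fermat.Agent.ES.ALG.InvLemma9

set_option autoImplicit false

namespace Fermat.Agent.ES.ALG.InvOdd9

open Module Fermat.Agent.ES.ALG.InvLemma9

variable {k : Type*} [Field k] {V : Type*} [AddCommGroup V] [Module k V]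
variable {G : Type*} [Group G] {ρ : G →* End k V} {d : G →* kˣ} {a : G → k}

/-! ### `pairs` is a subalgebra of `End × Endᵒᵖ` -/

theorem one_mem_pairs : ((1 : End k V), (1 : End k V)) ∈ pairs ρ d := by
  have : ((1 : End k V), (1 : End k V)) = (ρ 1, ((d 1 : kˣ) : k) • ρ (1 : G)⁻¹) := by
    simp
  rw [this]
  exact Submodule.subset_span ⟨1, rfl⟩

theorem mul_mem_pairs {w₁ w₂ : End k V × End k V} (hw₁ : w₁ ∈ pairs ρ d)
    (hw₂ : w₂ ∈ pairs ρ d) : (w₁.1 * w₂.1, w₂.2 * w₁.2) ∈ pairs ρ d := by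
  induction hw₁, hw₂ using Submodule.span_induction₂ with
  | mem_mem x y hx hy =>
    obtain ⟨g, rfl⟩ := hx
    obtain ⟨g', rfl⟩ := hy
    have : (ρ g * ρ g', (((d g' : kˣ) : k) • ρ g'⁻¹) * (((d g : kˣ) : k) • ρ g⁻¹)) =
        (ρ (g * g'), ((d (g * g') : kˣ) : k) • ρ (g * g')⁻¹) := by
      simp only [map_mul, mul_inv_rev, Units.val_mul, smul_mul_smul_comm]
      rw [mul_comm ((d g' : kˣ) : k)]
    simp only
    rw [this]
    exact Submodule.subset_span ⟨g * g', rfl⟩
  | zero_left y _ =>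
    have : ((0 : End k V × End k V).1 * y.1, y.2 * (0 : End k V × End k V).2) = 0 := by simp
    rw [this]; exact (pairs ρ d).zero_mem
  | zero_right x _ =>
    have : (x.1 * (0 : End k V × End k V).1, (0 : End k V × End k V).2 * x.2) = 0 := by simp
    rw [this]; exact (pairs ρ d).zero_mem
  | add_left x y z _ _ _ hx hy =>
    have : ((x + y).1 * z.1, z.2 * (x + y).2) = (x.1 * z.1, z.2 * x.2) + (y.1 * z.1, z.2 * y.2) := by
      simp only [Prod.fst_add, Prod.snd_add, add_mul, mul_add, Prod.mk_add_mk]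
    rw [this]; exact (pairs ρ d).add_mem hx hy
  | add_right x y z _ _ _ hx hy =>
    have : (x.1 * (y + z).1, (y + z).2 * x.2) = (x.1 * y.1, y.2 * x.2) + (x.1 * z.1, z.2 * x.2) := by
      simp only [Prod.fst_add, Prod.snd_add, add_mul, mul_add, Prod.mk_add_mk]
    rw [this]; exact (pairs ρ d).add_mem hx hy
  | smul_left c x y _ _ hx =>
    have : ((c • x).1 * y.1, y.2 * (c • x).2) = c • (x.1 * y.1, y.2 * x.2) := by
      simp only [Prod.smul_fst, Prod.smul_snd, smul_mul_assoc, mul_smul_comm, Prod.smul_mk]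
    rw [this]; exact (pairs ρ d).smul_mem c hx
  | smul_right c x y _ _ hx =>
    have : (x.1 * (c • y).1, (c • y).2 * x.2) = c • (x.1 * y.1, y.2 * x.2) := by
      simp only [Prod.smul_fst, Prod.smul_snd, smul_mul_assoc, mul_smul_comm, Prod.smul_mk]
    rw [this]; exact (pairs ρ d).smul_mem c hx

theorem gen_mem_pairs (g : G) : (ρ g, ((d g : kˣ) : k) • ρ g⁻¹) ∈ pairs ρ d :=
  Submodule.subset_span ⟨g, rfl⟩

/-! ### (INV′): trace, determinant and characteristic polynomial from one non-scalar pair -/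

section InvPrime

variable [FiniteDimensional k V]

theorem trace_eq' (h2 : (2 : k) ≠ 0)
    (h : ∀ g, ρ g + ((d g : kˣ) : k) • ρ g⁻¹ = a g • (1 : End k V))
    (hV : finrank k V = 2) {w₀ : End k V × End k V} (hw₀ : w₀ ∈ pairs ρ d) (hns₀ : ¬ IsScal w₀.1)
    (g : G) : LinearMap.trace k V (ρ g) = a g := by
  have h1ne : (1 : End k V) ≠ 0 := by
    have : Nontrivial V := Module.nontrivial_of_finrank_pos (R := k) (by omega)
    exact one_ne_zero
  have hinj : ∀ x y : k, x • (1 : End k V) = y • 1 → x = y := fun x y hxy => by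
    have := sub_eq_zero.mpr hxy
    rw [← sub_smul] at this
    exact sub_eq_zero.mp ((smul_eq_zero.mp this).resolve_right h1ne)
  have hg : (ρ g, ((d g : kˣ) : k) • ρ g⁻¹) ∈ pairs ρ d := gen_mem_pairs g
  by_cases hns : IsScal (ρ g)
  · obtain ⟨r₀, r₀'⟩ := w₀
    have hsum : (ρ g + r₀, ((d g : kˣ) : k) • ρ g⁻¹ + r₀') ∈ pairs ρ d :=
      (pairs ρ d).add_mem hg hw₀
    have hns' : ¬ IsScal (ρ g + r₀) := by
      intro hsc
      apply hns₀
      obtain ⟨c, hc⟩ := hns
      obtain ⟨e, he⟩ := hsc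
      exact ⟨e - c, by rw [sub_smul, ← he, ← hc]; abel⟩
    have e1 := add_eq_trace_of_mem_pairs h2 hV h hsum hns'
    have e2 := add_eq_trace_of_mem_pairs h2 hV h hw₀ hns₀
    simp only at e1 e2
    have e3 : (ρ g + ((d g : kˣ) : k) • ρ g⁻¹) + (r₀ + r₀') =
        (LinearMap.trace k V (ρ g) + LinearMap.trace k V r₀) • (1 : End k V) := by
      rw [← map_add, ← e1]; abel
    rw [e2, h g, add_smul] at e3
    exact (hinj _ _ (add_right_cancel e3)).symm
  · have e1 := add_eq_trace_of_mem_pairs h2 hV h hg hns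
    simp only at e1
    rw [h g] at e1
    exact (hinj _ _ e1).symm

theorem det_eq' (h2 : (2 : k) ≠ 0)
    (h : ∀ g, ρ g + ((d g : kˣ) : k) • ρ g⁻¹ = a g • (1 : End k V))
    (hV : finrank k V = 2) {w₀ : End k V × End k V} (hw₀ : w₀ ∈ pairs ρ d) (hns₀ : ¬ IsScal w₀.1)
    (g : G) : LinearMap.det (ρ g) = ((d g : kˣ) : k) := by
  have htr := trace_eq' h2 h hV hw₀ hns₀ g
  have hrel : ρ g * ρ g - a g • ρ g + ((d g : kˣ) : k) • (1 : End k V) = 0 := by
    have hmul : ρ g * ρ g⁻¹ = 1 := by rw [← map_mul, mul_inv_cancel, map_one]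
    have := congrArg (fun x => ρ g * x) (h g)
    simp only [mul_add, mul_smul_comm, hmul, mul_one] at this
    rw [← this]; abel
  by_cases hns : IsScal (ρ g)
  · obtain ⟨c, hc⟩ := hns
    have h1ne : (1 : End k V) ≠ 0 := by
      have : Nontrivial V := Module.nontrivial_of_finrank_pos (R := k) (by omega)
      exact one_ne_zero
    have htr' : a g = 2 * c := by
      rw [← htr, hc, map_smul, LinearMap.trace_one, hV]; simp [mul_comm]
    have hdet : LinearMap.det (ρ g) = c * c := by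
      rw [hc, LinearMap.det_smul, hV, map_one, mul_one, pow_two]
    rw [hc] at hrel
    have : (c * c - a g * c + ((d g : kˣ) : k)) • (1 : End k V) = 0 := by
      rw [← hrel]
      simp only [smul_mul_assoc, mul_smul_comm, one_mul, smul_smul, add_smul, sub_smul]
    have h0 := (smul_eq_zero.mp this).resolve_right h1ne
    rw [hdet]
    rw [htr'] at h0
    linear_combination (-1 : k) * h0
  · exact (trace_det_of_quadratic hV hns hrel).2

open Polynomial in
theorem charpoly_eq' (h2 : (2 : k) ≠ 0)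
    (h : ∀ g, ρ g + ((d g : kˣ) : k) • ρ g⁻¹ = a g • (1 : End k V))
    (hV : finrank k V = 2) {w₀ : End k V × End k V} (hw₀ : w₀ ∈ pairs ρ d) (hns₀ : ¬ IsScal w₀.1)
    (g : G) :
    LinearMap.charpoly (ρ g) = X ^ 2 - C (a g) * X + C (((d g : kˣ) : k)) := by
  let b : Basis (Fin 2) k V := Module.finBasisOfFinrankEq k V hV
  rw [← LinearMap.charpoly_toMatrix (ρ g) b, Matrix.charpoly_fin_two,
    ← LinearMap.trace_eq_matrix_trace k b, LinearMap.det_toMatrix b, trace_eq' h2 h hV hw₀ hns₀ g,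
    det_eq' h2 h hV hw₀ hns₀ g]

end InvPrime

/-! ### The idempotents attached to an "odd" involution -/

section Odd

variable (ρ) in
/-- Irreducibility over `k`: the only `G`-stable subspaces are `⊥` and `⊤`. -/
def Irred : Prop :=
  ∀ W : Submodule k V, (∀ g : G, ∀ w ∈ W, ρ g w ∈ W) → W = ⊥ ∨ W = ⊤

variable {c : G}

/-- The idempotent `(1 + ρ c)/2`. -/
noncomputable def idemP (ρ : G →* End k V) (c : G) : End k V := (2⁻¹ : k) • (1 + ρ c)

/-- The idempotent `(1 - ρ c)/2`. -/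
noncomputable def idemM (ρ : G →* End k V) (c : G) : End k V := (2⁻¹ : k) • (1 - ρ c)

theorem rho_c_sq (hc2 : c * c = 1) : ρ c * ρ c = 1 := by rw [← map_mul, hc2, map_one]

theorem c_inv (hc2 : c * c = 1) : c⁻¹ = c := inv_eq_of_mul_eq_one_right hc2

theorem gamma_mem_pairs (hc2 : c * c = 1) (hdc : ((d c : kˣ) : k) = -1) :
    (ρ c, -ρ c) ∈ pairs ρ d := by
  have := gen_mem_pairs (ρ := ρ) (d := d) c
  rwa [hdc, c_inv hc2, neg_one_smul] at this

theorem idem_mem_pairs (hc2 : c * c = 1) (hdc : ((d c : kˣ) : k) = -1) :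
    (idemP ρ c, idemM ρ c) ∈ pairs ρ d := by
  have h1 := (pairs ρ d).smul_mem (2⁻¹ : k)
    ((pairs ρ d).add_mem (one_mem_pairs (ρ := ρ) (d := d)) (gamma_mem_pairs hc2 hdc))
  have : (2⁻¹ : k) • (((1 : End k V), (1 : End k V)) + (ρ c, -ρ c)) = (idemP ρ c, idemM ρ c) := by
    simp only [idemP, idemM, Prod.mk_add_mk, Prod.smul_mk, sub_eq_add_neg]
  rwa [this] at h1

theorem idem_mem_pairs' (hc2 : c * c = 1) (hdc : ((d c : kˣ) : k) = -1) :
    (idemM ρ c, idemP ρ c) ∈ pairs ρ d := by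
  have h1 := (pairs ρ d).smul_mem (2⁻¹ : k)
    ((pairs ρ d).sub_mem (one_mem_pairs (ρ := ρ) (d := d)) (gamma_mem_pairs hc2 hdc))
  have : (2⁻¹ : k) • (((1 : End k V), (1 : End k V)) - (ρ c, -ρ c)) = (idemM ρ c, idemP ρ c) := by
    simp only [idemP, idemM, Prod.mk_sub_mk, Prod.smul_mk, sub_neg_eq_add]
  rwa [this] at h1

theorem idemP_add_idemM (h2 : (2 : k) ≠ 0) : idemP ρ c + idemM ρ c = 1 := by
  simp only [idemP, idemM, ← smul_add]
  have : (1 : End k V) + ρ c + (1 - ρ c) = (2 : k) • (1 : End k V) := by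
    rw [two_smul]; abel
  rw [this, smul_smul, inv_mul_cancel₀ h2, one_smul]

theorem idemP_mul_idemM (hc2 : c * c = 1) : idemP ρ c * idemM ρ c = 0 := by
  simp only [idemP, idemM, smul_mul_smul_comm]
  have : ((1 : End k V) + ρ c) * (1 - ρ c) = 0 := by
    have e : ((1 : End k V) + ρ c) * (1 - ρ c) = 1 - ρ c * ρ c := by noncomm_ring
    rw [e, rho_c_sq hc2, sub_self]
  rw [this, smul_zero]

theorem idemM_mul_idemP (hc2 : c * c = 1) : idemM ρ c * idemP ρ c = 0 := by
  simp only [idemP, idemM, smul_mul_smul_comm]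
  have : ((1 : End k V) - ρ c) * (1 + ρ c) = 0 := by
    have e : ((1 : End k V) - ρ c) * (1 + ρ c) = 1 - ρ c * ρ c := by noncomm_ring
    rw [e, rho_c_sq hc2, sub_self]
  rw [this, smul_zero]

theorem idemP_mul_self (h2 : (2 : k) ≠ 0) (hc2 : c * c = 1) : idemP ρ c * idemP ρ c = idemP ρ c := by
  have h := idemP_add_idemM (ρ := ρ) (c := c) h2
  calc idemP ρ c * idemP ρ c = idemP ρ c * (idemP ρ c + idemM ρ c) := by
        rw [mul_add, idemP_mul_idemM hc2, add_zero]
    _ = idemP ρ c := by rw [h, mul_one]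

theorem idemM_mul_self (h2 : (2 : k) ≠ 0) (hc2 : c * c = 1) : idemM ρ c * idemM ρ c = idemM ρ c := by
  have h := idemP_add_idemM (ρ := ρ) (c := c) h2
  calc idemM ρ c * idemM ρ c = idemM ρ c * (idemP ρ c + idemM ρ c) := by
        rw [mul_add, idemM_mul_idemP hc2, zero_add]
    _ = idemM ρ c := by rw [h, mul_one]

/-- **Corner algebra**: `e r e ∈ k e` for every `r` in the image algebra. -/
theorem idemP_corner (h : ∀ g, ρ g + ((d g : kˣ) : k) • ρ g⁻¹ = a g • (1 : End k V))
    (hc2 : c * c = 1) (hdc : ((d c : kˣ) : k) = -1) (h2 : (2 : k) ≠ 0)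
    {w : End k V × End k V} (hw : w ∈ pairs ρ d) :
    ∃ s : k, idemP ρ c * w.1 * idemP ρ c = s • idemP ρ c := by
  have he := idem_mem_pairs (ρ := ρ) (d := d) hc2 hdc
  have h1 := mul_mem_pairs (mul_mem_pairs he hw) he
  simp only at h1
  obtain ⟨s, hs⟩ := pairs_add_isScal h h1
  simp only at hs
  refine ⟨s, ?_⟩
  have := congrArg (fun x => idemP ρ c * x) hs
  simp only [mul_add, mul_smul_comm, mul_one] at this
  rw [← this]
  have hz : idemP ρ c * (idemM ρ c * (w.2 * idemM ρ c)) = 0 := by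
    rw [← mul_assoc, idemP_mul_idemM hc2, zero_mul]
  rw [hz, add_zero, ← mul_assoc, ← mul_assoc, idemP_mul_self h2 hc2]

theorem idemM_corner (h : ∀ g, ρ g + ((d g : kˣ) : k) • ρ g⁻¹ = a g • (1 : End k V))
    (hc2 : c * c = 1) (hdc : ((d c : kˣ) : k) = -1) (h2 : (2 : k) ≠ 0)
    {w : End k V × End k V} (hw : w ∈ pairs ρ d) :
    ∃ s : k, idemM ρ c * w.1 * idemM ρ c = s • idemM ρ c := by
  have he := idem_mem_pairs' (ρ := ρ) (d := d) hc2 hdc
  have h1 := mul_mem_pairs (mul_mem_pairs he hw) he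
  simp only at h1
  obtain ⟨s, hs⟩ := pairs_add_isScal h h1
  simp only at hs
  refine ⟨s, ?_⟩
  have := congrArg (fun x => idemM ρ c * x) hs
  simp only [mul_add, mul_smul_comm, mul_one] at this
  rw [← this]
  have hz : idemM ρ c * (idemP ρ c * (w.2 * idemP ρ c)) = 0 := by
    rw [← mul_assoc, idemM_mul_idemP hc2, zero_mul]
  rw [hz, add_zero, ← mul_assoc, ← mul_assoc, idemM_mul_self h2 hc2]

/-- The orbit submodule `A u` of a vector under the image algebra `A = fst (pairs)`. -/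
def orbit (ρ : G →* End k V) (d : G →* kˣ) (u : V) : Submodule k V :=
  Submodule.map ((LinearMap.applyₗ u : End k V →ₗ[k] V).comp
    (LinearMap.fst k (End k V) (End k V))) (pairs ρ d)

theorem mem_orbit_iff {u v : V} :
    v ∈ orbit ρ d u ↔ ∃ w ∈ pairs ρ d, w.1 u = v := by
  simp [orbit, Submodule.mem_map]

theorem self_mem_orbit (u : V) : u ∈ orbit ρ d u :=
  mem_orbit_iff.mpr ⟨(1, 1), one_mem_pairs, rfl⟩

theorem orbit_stable (u : V) (g : G) (v : V) (hv : v ∈ orbit ρ d u) : ρ g v ∈ orbit ρ d u := by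
  obtain ⟨w, hw, rfl⟩ := mem_orbit_iff.mp hv
  exact mem_orbit_iff.mpr ⟨_, mul_mem_pairs (gen_mem_pairs g) hw, rfl⟩

theorem orbit_eq_top (hirr : Irred ρ) {u : V} (hu : u ≠ 0) : orbit ρ d u = ⊤ := by
  rcases hirr (orbit ρ d u) (orbit_stable u) with h | h
  · exact absurd ((Submodule.eq_bot_iff _).mp h u (self_mem_orbit u)) hu
  · exact h

theorem finrank_range_idemP_le (h : ∀ g, ρ g + ((d g : kˣ) : k) • ρ g⁻¹ = a g • (1 : End k V))
    (hc2 : c * c = 1) (hdc : ((d c : kˣ) : k) = -1) (h2 : (2 : k) ≠ 0) (hirr : Irred ρ) :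
    finrank k (LinearMap.range (idemP ρ c)) ≤ 1 := by
  by_cases hbot : LinearMap.range (idemP ρ c) = ⊥
  · rw [hbot, finrank_bot]; exact Nat.zero_le 1
  obtain ⟨x, hx, hx0⟩ := (Submodule.ne_bot_iff _).mp hbot
  have hex : idemP ρ c x = x := by
    obtain ⟨y, rfl⟩ := hx
    rw [← Module.End.mul_apply, idemP_mul_self h2 hc2]
  refine finrank_le_one (⟨x, hx⟩ : LinearMap.range (idemP ρ c)) fun ⟨y, hy⟩ => ?_
  have hey : idemP ρ c y = y := by
    obtain ⟨z, rfl⟩ := hy
    rw [← Module.End.mul_apply, idemP_mul_self h2 hc2]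
  have hy' : y ∈ orbit ρ d x := by rw [orbit_eq_top hirr hx0]; trivial
  obtain ⟨w, hw, hwy⟩ := mem_orbit_iff.mp hy'
  obtain ⟨s, hs⟩ := idemP_corner h hc2 hdc h2 hw
  refine ⟨s, Subtype.ext ?_⟩
  have := congrArg (fun f : End k V => f x) hs
  simp only [Module.End.mul_apply, LinearMap.smul_apply, hex, hwy, hey] at this
  exact this.symm

theorem finrank_range_idemM_le (h : ∀ g, ρ g + ((d g : kˣ) : k) • ρ g⁻¹ = a g • (1 : End k V))
    (hc2 : c * c = 1) (hdc : ((d c : kˣ) : k) = -1) (h2 : (2 : k) ≠ 0) (hirr : Irred ρ) :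
    finrank k (LinearMap.range (idemM ρ c)) ≤ 1 := by
  by_cases hbot : LinearMap.range (idemM ρ c) = ⊥
  · rw [hbot, finrank_bot]; exact Nat.zero_le 1
  obtain ⟨x, hx, hx0⟩ := (Submodule.ne_bot_iff _).mp hbot
  have hex : idemM ρ c x = x := by
    obtain ⟨y, rfl⟩ := hx
    rw [← Module.End.mul_apply, idemM_mul_self h2 hc2]
  refine finrank_le_one (⟨x, hx⟩ : LinearMap.range (idemM ρ c)) fun ⟨y, hy⟩ => ?_
  have hey : idemM ρ c y = y := by
    obtain ⟨z, rfl⟩ := hy
    rw [← Module.End.mul_apply, idemM_mul_self h2 hc2]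
  have hy' : y ∈ orbit ρ d x := by rw [orbit_eq_top hirr hx0]; trivial
  obtain ⟨w, hw, hwy⟩ := mem_orbit_iff.mp hy'
  obtain ⟨s, hs⟩ := idemM_corner h hc2 hdc h2 hw
  refine ⟨s, Subtype.ext ?_⟩
  have := congrArg (fun f : End k V => f x) hs
  simp only [Module.End.mul_apply, LinearMap.smul_apply, hex, hwy, hey] at this
  exact this.symm

variable [FiniteDimensional k V]

/-- **(INV-ODD), dimension bound.** -/
theorem finrank_le_two_of_irred (h2 : (2 : k) ≠ 0)
    (h : ∀ g, ρ g + ((d g : kˣ) : k) • ρ g⁻¹ = a g • (1 : End k V))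
    (hc2 : c * c = 1) (hdc : ((d c : kˣ) : k) = -1) (hirr : Irred ρ) :
    finrank k V ≤ 2 := by
  have htop : LinearMap.range (idemP ρ c) ⊔ LinearMap.range (idemM ρ c) = ⊤ := by
    rw [eq_top_iff]
    intro v _
    have hv : v = idemP ρ c v + idemM ρ c v := by
      rw [← LinearMap.add_apply, idemP_add_idemM h2, Module.End.one_apply]
    rw [hv]
    exact Submodule.add_mem_sup (LinearMap.mem_range_self _ v) (LinearMap.mem_range_self _ v)
  have h1 := finrank_range_idemP_le h hc2 hdc h2 hirr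
  have h3 := finrank_range_idemM_le h hc2 hdc h2 hirr
  have h4 := Submodule.finrank_add_le_finrank_add_finrank (LinearMap.range (idemP ρ c))
    (LinearMap.range (idemM ρ c))
  rw [htop, finrank_top] at h4
  omega

omit [FiniteDimensional k V] in
/-- If `ρ c` is a scalar then every `ρ g` is a scalar. -/
theorem isScal_of_isScal_c (h2 : (2 : k) ≠ 0)
    (h : ∀ g, ρ g + ((d g : kˣ) : k) • ρ g⁻¹ = a g • (1 : End k V))
    (hc2 : c * c = 1) (hdc : ((d c : kˣ) : k) = -1) [Nontrivial V] (hsc : IsScal (ρ c)) (g : G) :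
    IsScal (ρ g) := by
  obtain ⟨l, hl⟩ := hsc
  have h1ne : (1 : End k V) ≠ 0 := one_ne_zero
  have hl0 : l ≠ 0 := by
    rintro rfl
    have := rho_c_sq (ρ := ρ) hc2
    rw [hl, zero_smul, zero_mul] at this
    exact h1ne this.symm
  -- `(0, 1) ∈ pairs`
  have h01 : ((0 : End k V), (1 : End k V)) ∈ pairs ρ d := by
    have hg := gamma_mem_pairs (ρ := ρ) (d := d) hc2 hdc
    have h11 := (pairs ρ d).smul_mem l (one_mem_pairs (ρ := ρ) (d := d))
    have hdiff := (pairs ρ d).sub_mem h11 hg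
    have : l • ((1 : End k V), (1 : End k V)) - (ρ c, -ρ c) = (0, (2 * l) • (1 : End k V)) := by
      rw [hl]
      simp only [Prod.smul_mk, Prod.mk_sub_mk, sub_self, sub_neg_eq_add, ← add_smul, two_mul]
    rw [this] at hdiff
    have := (pairs ρ d).smul_mem (2 * l)⁻¹ hdiff
    have e : (2 * l)⁻¹ • ((0 : End k V), (2 * l) • (1 : End k V)) = (0, 1) := by
      rw [Prod.smul_mk, smul_zero, smul_smul, inv_mul_cancel₀ (mul_ne_zero h2 hl0), one_smul]
    rwa [e] at this
  have hg := gen_mem_pairs (ρ := ρ) (d := d) g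
  have hs2 := pairs_mul_isScal h h01 hg
  simp only [zero_mul, zero_add, mul_one] at hs2
  obtain ⟨s, hs⟩ := pairs_add_isScal h hg
  simp only at hs
  obtain ⟨t, ht⟩ := hs2
  exact ⟨s - t, by rw [sub_smul, ← hs, ← ht]; abel⟩

omit [FiniteDimensional k V] in
/-- In dimension `≥ 2` an irreducible representation cannot consist of scalars. -/
theorem not_forall_isScal_of_irred (hirr : Irred ρ) (hV : 2 ≤ finrank k V) :
    ¬ ∀ g, IsScal (ρ g) := by
  intro hall
  have : Nontrivial V := Module.nontrivial_of_finrank_pos (R := k) (by omega)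
  obtain ⟨u, hu⟩ := exists_ne (0 : V)
  rcases hirr (Submodule.span k {u}) (fun g w hw => by
      obtain ⟨s, hs⟩ := hall g
      rw [hs, LinearMap.smul_apply, Module.End.one_apply]
      exact Submodule.smul_mem _ _ hw) with hbot | htop
  · exact hu ((Submodule.span_singleton_eq_bot).mp hbot)
  · have := finrank_span_singleton (K := k) hu
    rw [htop, finrank_top] at this
    omega

open Polynomial in
/-- **(INV-ODD), characteristic polynomial** in dimension two. -/
theorem charpoly_eq_of_irred (h2 : (2 : k) ≠ 0)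
    (h : ∀ g, ρ g + ((d g : kˣ) : k) • ρ g⁻¹ = a g • (1 : End k V))
    (hc2 : c * c = 1) (hdc : ((d c : kˣ) : k) = -1) (hirr : Irred ρ)
    (hV : finrank k V = 2) (g : G) :
    LinearMap.charpoly (ρ g) = X ^ 2 - C (a g) * X + C (((d g : kˣ) : k)) := by
  have : Nontrivial V := Module.nontrivial_of_finrank_pos (R := k) (by omega)
  have hns : ¬ IsScal (ρ c) := fun hsc =>
    not_forall_isScal_of_irred hirr hV.ge (isScal_of_isScal_c h2 h hc2 hdc hsc)
  exact charpoly_eq' h2 h hV (gamma_mem_pairs hc2 hdc) hns g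

/-- **(INV-ODD), dimension one**: the representation is a character `ψ` with `ψ + d ψ⁻¹ = a`. -/
theorem exists_char_of_finrank_one
    (h : ∀ g, ρ g + ((d g : kˣ) : k) • ρ g⁻¹ = a g • (1 : End k V))
    (hV : finrank k V = 1) :
    ∃ ψ : G →* kˣ, (∀ g, ρ g = ((ψ g : kˣ) : k) • (1 : End k V)) ∧
      ∀ g, ((ψ g : kˣ) : k) + ((d g : kˣ) : k) * ((ψ g : kˣ) : k)⁻¹ = a g := by
  obtain ⟨v, hv0, hv⟩ := finrank_eq_one_iff'.mp hV
  have hscal : ∀ g, ∃ s : k, ρ g = s • (1 : End k V) := by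
    intro g
    obtain ⟨s, hs⟩ := hv (ρ g v)
    refine ⟨s, LinearMap.ext fun w => ?_⟩
    obtain ⟨t, rfl⟩ := hv w
    rw [map_smul, ← hs, LinearMap.smul_apply, Module.End.one_apply, smul_comm]
  choose f hf using hscal
  have h1ne : (1 : End k V) ≠ 0 := by
    have : Nontrivial V := Module.nontrivial_of_finrank_pos (R := k) (by omega)
    exact one_ne_zero
  have hinj : ∀ x y : k, x • (1 : End k V) = y • 1 → x = y := fun x y hxy => by
    have := sub_eq_zero.mpr hxy
    rw [← sub_smul] at this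
    exact sub_eq_zero.mp ((smul_eq_zero.mp this).resolve_right h1ne)
  have hf1 : f 1 = 1 := hinj _ _ (by rw [← hf, map_one, one_smul])
  have hfmul : ∀ g g', f (g * g') = f g * f g' := fun g g' => hinj _ _ (by
    rw [← hf, map_mul, hf g, hf g', smul_mul_smul_comm, mul_one])
  let ψ : G →* kˣ := MonoidHom.toHomUnits
    { toFun := f, map_one' := hf1, map_mul' := hfmul }
  have hψ : ∀ g, ((ψ g : kˣ) : k) = f g := fun g => rfl
  refine ⟨ψ, fun g => by rw [hψ]; exact hf g, fun g => ?_⟩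
  rw [hψ]
  have hinv : f g⁻¹ = (f g)⁻¹ := by
    have : f g * f g⁻¹ = 1 := by rw [← hfmul, mul_inv_cancel, hf1]
    exact (eq_inv_of_mul_eq_one_right this)
  have := h g
  rw [hf g, hf g⁻¹, hinv, smul_smul, ← add_smul] at this
  exact hinj _ _ this

end Odd

end Fermat.Agent.ES.ALG.InvOdd9
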