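/-
Program J, chapter J5 (pure algebra) — helper9.

**(LUCAS) + (DENSE).**  `𝒪` a commutative ring, `Λ` a finite free `𝒪`-module, `I : ℕ → Ideal 𝒪` with
`⋂ I n = 0`, `ρ : G →* End 𝒪 Λ`, `d : G →* 𝒪ˣ`.  Let `Φ ⊆ G` ("Frobenius lifts") with

  `ρ σ * ρ σ - aΦ σ • ρ σ + d σ • 1 = 0`  for `σ ∈ Φ`      (Eichler–Shimura),

and assume the powers of elements of `Φ` are dense: for all `n`, `g` there are `σ ∈ Φ` and `j` with
`ρ g ≡ (ρ σ)^j` and `d g ≡ (d σ)^j` modulo `I n` (generator form of Chebotarev / Frobenius' density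
theorem).  Then for EVERY `g` there is `a ∈ 𝒪` with `ρ g + d g • ρ g⁻¹ = a • 1` — the hypothesis of
the involution lemmas `InvLemma9` / `InvOdd9`.
-/
import Mathlib

set_option autoImplicit false
set_option linter.unusedSectionVars false

namespace Fermat.Agent.ES.ALG.RelDense9

open Module

variable {𝒪 : Type*} [CommRing 𝒪] {Λ : Type*} [AddCommGroup Λ] [Module 𝒪 Λ]

/-! ### Congruences of endomorphisms modulo an ideal -/

/-- `f ≡ 0 mod I`: `f` maps `Λ` into `I • Λ`. -/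
def EndCongr (I : Ideal 𝒪) (f g : End 𝒪 Λ) : Prop :=
  ∀ v, f v - g v ∈ I • (⊤ : Submodule 𝒪 Λ)

theorem EndCongr.refl (I : Ideal 𝒪) (f : End 𝒪 Λ) : EndCongr I f f := fun v => by
  rw [sub_self]; exact Submodule.zero_mem _

theorem EndCongr.symm {I : Ideal 𝒪} {f g : End 𝒪 Λ} (h : EndCongr I f g) : EndCongr I g f :=
  fun v => by
    have := Submodule.neg_mem _ (h v)
    rwa [neg_sub] at this

theorem EndCongr.trans {I : Ideal 𝒪} {f g k : End 𝒪 Λ} (h : EndCongr I f g) (h' : EndCongr I g k) :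
    EndCongr I f k := fun v => by
  have := Submodule.add_mem _ (h v) (h' v)
  rwa [sub_add_sub_cancel] at this

theorem EndCongr.add {I : Ideal 𝒪} {f g f' g' : End 𝒪 Λ} (h : EndCongr I f g)
    (h' : EndCongr I f' g') : EndCongr I (f + f') (g + g') := fun v => by
  have := Submodule.add_mem _ (h v) (h' v)
  simpa [add_sub_add_comm] using this

theorem map_mem_smul_top (I : Ideal 𝒪) (f : End 𝒪 Λ) {v : Λ}
    (hv : v ∈ I • (⊤ : Submodule 𝒪 Λ)) : f v ∈ I • (⊤ : Submodule 𝒪 Λ) := by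
  refine Submodule.smul_induction_on hv (fun r hr m _ => ?_) (fun x y hx hy => ?_)
  · rw [map_smul]; exact Submodule.smul_mem_smul hr Submodule.mem_top
  · rw [map_add]; exact Submodule.add_mem _ hx hy

theorem EndCongr.mul_left {I : Ideal 𝒪} {f g : End 𝒪 Λ} (h : EndCongr I f g) (k : End 𝒪 Λ) :
    EndCongr I (k * f) (k * g) := fun v => by
  simp only [Module.End.mul_apply, ← map_sub]
  exact map_mem_smul_top I k (h v)

theorem EndCongr.mul_right {I : Ideal 𝒪} {f g : End 𝒪 Λ} (h : EndCongr I f g) (k : End 𝒪 Λ) :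
    EndCongr I (f * k) (g * k) := fun v => by
  simp only [Module.End.mul_apply]
  exact h (k v)

theorem EndCongr.mul {I : Ideal 𝒪} {f g f' g' : End 𝒪 Λ} (h : EndCongr I f g)
    (h' : EndCongr I f' g') : EndCongr I (f * f') (g * g') :=
  (h.mul_right f').trans (h'.mul_left g)

theorem EndCongr.smul {I : Ideal 𝒪} {f g : End 𝒪 Λ} (h : EndCongr I f g) {x y : 𝒪}
    (hxy : x - y ∈ I) : EndCongr I (x • f) (y • g) := fun v => by
  have e : (x • f) v - (y • g) v = x • (f v - g v) + (x - y) • g v := by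
    simp only [LinearMap.smul_apply, smul_sub, sub_smul]; abel
  rw [e]
  exact Submodule.add_mem _ (Submodule.smul_mem _ _ (h v))
    (Submodule.smul_mem_smul hxy Submodule.mem_top)

/-- Inverses of congruent units are congruent. -/
theorem EndCongr.inv {I : Ideal 𝒪} {f g f' g' : End 𝒪 Λ} (h : EndCongr I f g)
    (hf : f' * f = 1) (hg : g * g' = 1) : EndCongr I f' g' := by
  -- f' - g' = f' (g - f) g'
  have e : f' - g' = f' * (g - f) * g' := by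
    rw [mul_sub, sub_mul, hf, mul_assoc, hg, mul_one, one_mul]
  intro v
  have : f' v - g' v = (f' - g') v := rfl
  rw [this, e]
  simp only [Module.End.mul_apply, LinearMap.sub_apply]
  exact map_mem_smul_top I f' (h.symm (g' v))

/-! ### (LUCAS) -/

/-- If `F + δ F' = a` with `F F' = F' F = 1`, then `F^j + δ^j F'^j` is a scalar for every `j`. -/
theorem lucas {F F' : End 𝒪 Λ} (hFF' : F * F' = 1) (hF'F : F' * F = 1) {δ a : 𝒪}
    (h : F + δ • F' = a • (1 : End 𝒪 Λ)) (j : ℕ) :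
    ∃ b : 𝒪, F ^ j + δ ^ j • F' ^ j = b • (1 : End 𝒪 Λ) := by
  have hcomm : Commute F F' := by rw [Commute, SemiconjBy, hFF', hF'F]
  suffices H : ∀ j : ℕ, (∃ b : 𝒪, F ^ j + δ ^ j • F' ^ j = b • (1 : End 𝒪 Λ)) ∧
      ∃ b : 𝒪, F ^ (j + 1) + δ ^ (j + 1) • F' ^ (j + 1) = b • (1 : End 𝒪 Λ) from (H j).1
  intro j
  induction j with
  | zero =>
    refine ⟨⟨2, ?_⟩, ⟨a, ?_⟩⟩
    · simp [two_smul]
    · simpa using h
  | succ j ih =>
    obtain ⟨⟨b₀, hb₀⟩, ⟨b₁, hb₁⟩⟩ := ih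
    refine ⟨⟨b₁, hb₁⟩, ⟨b₁ * a - δ * b₀, ?_⟩⟩
    have hFp : ∀ m : ℕ, F ^ (m + 1) * F' = F ^ m := fun m => by
      rw [pow_succ, mul_assoc, hFF', mul_one]
    have hF'p : ∀ m : ℕ, F' ^ (m + 1) * F = F' ^ m := fun m => by
      rw [pow_succ, mul_assoc, hF'F, mul_one]
    have key : (F ^ (j + 1) + δ ^ (j + 1) • F' ^ (j + 1)) * (F + δ • F') =
        (F ^ (j + 1 + 1) + δ ^ (j + 1 + 1) • F' ^ (j + 1 + 1)) + δ • (F ^ j + δ ^ j • F' ^ j) := by
      simp only [add_mul, mul_add, smul_mul_assoc, mul_smul_comm, smul_add, smul_smul]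
      rw [hFp j, hF'p j, ← pow_succ F, ← pow_succ F']
      have e1 : δ ^ (j + 1) * δ = δ ^ (j + 1 + 1) := (pow_succ δ (j + 1)).symm
      have e2 : δ * δ ^ j = δ ^ (j + 1) := (pow_succ' δ j).symm
      rw [mul_comm δ (δ ^ (j + 1)), e1, e2]
      abel
    rw [hb₁, h, hb₀] at key
    have : F ^ (j + 1 + 1) + δ ^ (j + 1 + 1) • F' ^ (j + 1 + 1) =
        b₁ • (1 : End 𝒪 Λ) * a • (1 : End 𝒪 Λ) - δ • b₀ • (1 : End 𝒪 Λ) := by
      rw [key]; abel
    rw [this, smul_mul_smul_comm, mul_one, smul_smul, ← sub_smul]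

/-- From the quadratic relation to the `σ + d σ⁻¹` form. -/
theorem rel_of_quadratic {F F' : End 𝒪 Λ} (hFF' : F * F' = 1) {δ a : 𝒪}
    (h : F * F - a • F + δ • (1 : End 𝒪 Λ) = 0) : F + δ • F' = a • (1 : End 𝒪 Λ) := by
  have := congrArg (fun x => x * F') h
  simp only [add_mul, sub_mul, smul_mul_assoc, mul_assoc, hFF', mul_one, one_mul, zero_mul] at this
  have e : F + δ • F' = (F - a • (1 : End 𝒪 Λ) + δ • F') + a • 1 := by abel
  rw [e, this, zero_add]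

/-! ### Scalars are closed -/

section Closed

variable [Module.Free 𝒪 Λ] [Module.Finite 𝒪 Λ]

omit [Module.Free 𝒪 Λ] [Module.Finite 𝒪 Λ] in
theorem repr_mem_of_mem_smul_top {ι : Type*} (b : Basis ι 𝒪 Λ) (I : Ideal 𝒪) {v : Λ}
    (hv : v ∈ I • (⊤ : Submodule 𝒪 Λ)) (i : ι) : b.repr v i ∈ I := by
  refine Submodule.smul_induction_on hv (fun r hr m _ => ?_) (fun x y hx hy => ?_)
  · rw [map_smul, Finsupp.smul_apply, smul_eq_mul]
    exact I.mul_mem_right _ hr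
  · rw [map_add, Finsupp.add_apply]
    exact I.add_mem hx hy

/-- An endomorphism of a finite free module which is congruent to a scalar modulo each `I n`,
`⋂ I n = 0`, is a scalar. -/
theorem isScalar_of_forall_congr (I : ℕ → Ideal 𝒪) (hI : ∀ x : 𝒪, (∀ n, x ∈ I n) → x = 0)
    (X : End 𝒪 Λ) (hX : ∀ n, ∃ a : 𝒪, EndCongr (I n) X (a • (1 : End 𝒪 Λ))) :
    ∃ a : 𝒪, X = a • (1 : End 𝒪 Λ) := by
  classical
  let b := Module.Free.chooseBasis 𝒪 Λ
  by_cases hne : Nonempty (Module.Free.ChooseBasisIndex 𝒪 Λ)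
  · obtain ⟨i₀⟩ := hne
    choose an han using hX
    have hcoord : ∀ n i j, b.repr (X (b j)) i - (if i = j then an n else 0) ∈ I n := by
      intro n i j
      have := repr_mem_of_mem_smul_top b (I n) (han n (b j)) i
      simpa [Finsupp.single_apply, eq_comm, LinearMap.smul_apply, Module.End.one_apply,
        map_sub, map_smul, Basis.repr_self] using this
    have hoff : ∀ i j, i ≠ j → b.repr (X (b j)) i = 0 := fun i j hij =>
      hI _ fun n => by simpa [if_neg hij] using hcoord n i j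
    have hdiag : ∀ j, b.repr (X (b j)) j = b.repr (X (b i₀)) i₀ := fun j => by
      refine sub_eq_zero.mp (hI _ fun n => ?_)
      have h1 := hcoord n j j
      have h2 := hcoord n i₀ i₀
      rw [if_pos rfl] at h1 h2
      have := (I n).sub_mem h1 h2
      simpa using this
    refine ⟨b.repr (X (b i₀)) i₀, b.ext fun j => b.repr.injective (Finsupp.ext fun i => ?_)⟩
    rw [LinearMap.smul_apply, Module.End.one_apply, map_smul, Finsupp.smul_apply, Basis.repr_self,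
      Finsupp.single_apply, smul_eq_mul]
    by_cases hij : j = i
    · subst hij; rw [if_pos rfl, mul_one, hdiag]
    · rw [if_neg hij, mul_zero]; exact hoff i j (Ne.symm hij)
  · have : IsEmpty (Module.Free.ChooseBasisIndex 𝒪 Λ) := not_nonempty_iff.mp hne
    exact ⟨0, b.ext fun j => isEmptyElim j⟩

end Closed

/-! ### (DENSE) -/

section Dense

variable [Module.Free 𝒪 Λ] [Module.Finite 𝒪 Λ]
variable {G : Type*} [Group G] (ρ : G →* End 𝒪 Λ) (d : G →* 𝒪ˣ)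

omit [Module.Free 𝒪 Λ] [Module.Finite 𝒪 Λ] in
theorem rho_mul_inv (g : G) : ρ g * ρ g⁻¹ = 1 := by rw [← map_mul, mul_inv_cancel, map_one]

omit [Module.Free 𝒪 Λ] [Module.Finite 𝒪 Λ] in
theorem rho_inv_mul (g : G) : ρ g⁻¹ * ρ g = 1 := by rw [← map_mul, inv_mul_cancel, map_one]

/-- **(DENSE)**: the relation `ρ g + d g • ρ g⁻¹ ∈ 𝒪 • 1` propagates from a set `Φ` whose powers are
dense to the whole group. -/
theorem exists_scalar_of_dense (I : ℕ → Ideal 𝒪) (hI : ∀ x : 𝒪, (∀ n, x ∈ I n) → x = 0)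
    (Φ : Set G) (aΦ : G → 𝒪)
    (hΦ : ∀ σ ∈ Φ, ρ σ * ρ σ - aΦ σ • ρ σ + ((d σ : 𝒪ˣ) : 𝒪) • (1 : End 𝒪 Λ) = 0)
    (hdense : ∀ (n : ℕ) (g : G), ∃ σ ∈ Φ, ∃ j : ℕ, EndCongr (I n) (ρ g) (ρ σ ^ j) ∧
      ((d g : 𝒪ˣ) : 𝒪) - ((d σ : 𝒪ˣ) : 𝒪) ^ j ∈ I n) (g : G) :
    ∃ a : 𝒪, ρ g + ((d g : 𝒪ˣ) : 𝒪) • ρ g⁻¹ = a • (1 : End 𝒪 Λ) := by
  refine isScalar_of_forall_congr I hI _ fun n => ?_
  obtain ⟨σ, hσ, j, hρ, hd⟩ := hdense n g
  have hrel := rel_of_quadratic (rho_mul_inv ρ σ) (hΦ σ hσ)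
  obtain ⟨b, hb⟩ := lucas (rho_mul_inv ρ σ) (rho_inv_mul ρ σ) hrel j
  refine ⟨b, ?_⟩
  rw [← hb]
  have hinv : EndCongr (I n) (ρ g⁻¹) (ρ σ⁻¹ ^ j) := by
    refine hρ.inv (rho_inv_mul ρ g) ?_
    rw [← mul_pow_of_commute, rho_mul_inv, one_pow]
    rw [Commute, SemiconjBy, rho_mul_inv, rho_inv_mul]
  exact hρ.add (hinv.smul hd)
where
  mul_pow_of_commute {F F' : End 𝒪 Λ} (h : Commute F F') (j : ℕ) :
      (F * F') ^ j = F ^ j * F' ^ j := h.mul_pow j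

/-- Bundled version: a function `a : G → 𝒪` with the relation, extending `aΦ` on `Φ` when `Λ ≠ 0`. -/
theorem exists_trace_fun_of_dense (I : ℕ → Ideal 𝒪) (hI : ∀ x : 𝒪, (∀ n, x ∈ I n) → x = 0)
    (Φ : Set G) (aΦ : G → 𝒪)
    (hΦ : ∀ σ ∈ Φ, ρ σ * ρ σ - aΦ σ • ρ σ + ((d σ : 𝒪ˣ) : 𝒪) • (1 : End 𝒪 Λ) = 0)
    (hdense : ∀ (n : ℕ) (g : G), ∃ σ ∈ Φ, ∃ j : ℕ, EndCongr (I n) (ρ g) (ρ σ ^ j) ∧
      ((d g : 𝒪ˣ) : 𝒪) - ((d σ : 𝒪ˣ) : 𝒪) ^ j ∈ I n) :
    ∃ a : G → 𝒪, (∀ g, ρ g + ((d g : 𝒪ˣ) : 𝒪) • ρ g⁻¹ = a g • (1 : End 𝒪 Λ)) ∧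
      ∀ σ ∈ Φ, a σ = aΦ σ := by
  classical
  choose a₀ ha₀ using exists_scalar_of_dense ρ d I hI Φ aΦ hΦ hdense
  refine ⟨fun g => if g ∈ Φ then aΦ g else a₀ g, fun g => ?_, fun σ hσ => if_pos hσ⟩
  by_cases hg : g ∈ Φ
  · simp only [if_pos hg]
    exact rel_of_quadratic (rho_mul_inv ρ g) (hΦ g hg)
  · simp only [if_neg hg]
    exact ha₀ g

end Dense

end Fermat.Agent.ES.ALG.RelDense9
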