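/-
Program J, chapter J5/J6.5 (pure algebra) — helper9.

**(ALG-CORE).**  `𝒪` a principal ideal domain with `2 ≠ 0` (a DVR of characteristic `0`), `Λ ≠ 0` a
finite free `𝒪`-module with a representation `ρ : G →* End 𝒪 Λ`, a character `d : G →* 𝒪ˣ` and a
function `a : G → 𝒪` with

  `ρ g + d g • ρ g⁻¹ = a g • 1`  for all `g`,

and one element `c` with `c * c = 1`, `d c = -1`.  Then there is a free `𝒪`-module `Λ'` of rank `2`
with a representation `ρ'` such that `charpoly (ρ' g) = X² - a(g) X + d(g)` for ALL `g`, and all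
congruences `ρ g ≡ 1`, `d g ≡ 1 (mod I)` are inherited by `ρ'` (so adic continuity and
unramifiedness transfer verbatim).  No extension of `𝒪` is needed.

`Λ'` is a minimal saturated `G`-stable sublattice `M` of `Λ` (if it has rank two), or `𝒪²` with
`ψ ⊕ d ψ⁻¹` (if `M` has rank one, `ψ` the character of `M`).

The general lemma (SATSUB) `endCongr_restrictRep` — a saturated stable submodule inherits
congruences — is also what one needs for the `χ`-eigen-sublattice.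
-/
import Mathlib
import Fermat.Agent.ES.ALG.InvOdd9
import Fermat.Agent.ES.ALG.RelDense9

set_option autoImplicit false
set_option linter.unusedSectionVars false

namespace Fermat.Agent.ES.ALG.RankTwo9

open Module Polynomial TensorProduct
open Fermat.Agent.ES.ALG.InvLemma9 Fermat.Agent.ES.ALG.InvOdd9 Fermat.Agent.ES.ALG.RelDense9

variable {𝒪 : Type} [CommRing 𝒪] [IsDomain 𝒪] [IsPrincipalIdealRing 𝒪]
variable {Λ : Type} [AddCommGroup Λ] [Module 𝒪 Λ] [Module.Free 𝒪 Λ] [Module.Finite 𝒪 Λ]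
variable {G : Type*} [Group G]

/-! ### (SATSUB): saturated stable submodules -/

/-- `M` is saturated in `Λ`. -/
def Saturated (M : Submodule 𝒪 Λ) : Prop := ∀ (s : 𝒪) (v : Λ), s ≠ 0 → s • v ∈ M → v ∈ M

/-- `M` is stable under `ρ`. -/
def Stable (ρ : G →* End 𝒪 Λ) (M : Submodule 𝒪 Λ) : Prop := ∀ g, ∀ v ∈ M, ρ g v ∈ M

theorem saturated_top : Saturated (⊤ : Submodule 𝒪 Λ) := fun _ _ _ _ => Submodule.mem_top

theorem stable_top (ρ : G →* End 𝒪 Λ) : Stable ρ (⊤ : Submodule 𝒪 Λ) :=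
  fun _ _ _ => Submodule.mem_top

/-- The restriction of `ρ` to a stable submodule. -/
def restrictRep (ρ : G →* End 𝒪 Λ) (M : Submodule 𝒪 Λ) (hM : Stable ρ M) : G →* End 𝒪 M where
  toFun g := (ρ g).restrict (hM g)
  map_one' := by
    ext v
    simp [LinearMap.restrict_apply]
  map_mul' g g' := by
    ext v
    simp [LinearMap.restrict_apply]

@[simp]
theorem coe_restrictRep_apply (ρ : G →* End 𝒪 Λ) (M : Submodule 𝒪 Λ) (hM : Stable ρ M) (g : G)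
    (v : M) : ((restrictRep ρ M hM g v : M) : Λ) = ρ g (v : Λ) := rfl

/-- (SATSUB) congruences are inherited by saturated stable submodules. -/
theorem endCongr_restrictRep {ρ : G →* End 𝒪 Λ} {M : Submodule 𝒪 Λ} (hsat : Saturated M)
    (hM : Stable ρ M) (I : Ideal 𝒪) (g : G) (h : EndCongr I (ρ g) 1) :
    EndCongr I (restrictRep ρ M hM g) 1 := by
  intro v
  obtain ⟨π, rfl⟩ : ∃ π, I = Ideal.span {π} := ⟨_, (IsPrincipalIdealRing.principal I).span_singleton_generator.symm⟩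
  have hv := h (v : Λ)
  rw [Submodule.ideal_span_singleton_smul, Submodule.mem_smul_pointwise_iff_exists] at hv
  obtain ⟨y, -, hy⟩ := hv
  rw [Submodule.ideal_span_singleton_smul, Submodule.mem_smul_pointwise_iff_exists]
  by_cases hπ : π = 0
  · refine ⟨0, Submodule.mem_top, ?_⟩
    subst hπ
    rw [zero_smul] at hy
    rw [smul_zero]
    apply Subtype.ext
    simp only [Submodule.coe_sub, coe_restrictRep_apply, Module.End.one_apply, Submodule.coe_zero]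
    exact hy
  · have hmem : (ρ g (v : Λ) - (1 : End 𝒪 Λ) (v : Λ)) ∈ M :=
      M.sub_mem (hM g v v.2) (by simp)
    rw [← hy] at hmem
    have hyM : y ∈ M := hsat π y hπ hmem
    refine ⟨⟨y, hyM⟩, Submodule.mem_top, ?_⟩
    apply Subtype.ext
    simp only [Submodule.coe_smul, Submodule.coe_sub, coe_restrictRep_apply, Module.End.one_apply]
    simpa using hy

/-- A relation `ρ g + d g • ρ g⁻¹ = a g • 1` restricts to stable submodules. -/
theorem rel_restrictRep {ρ : G →* End 𝒪 Λ} {d : G →* 𝒪ˣ} {a : G → 𝒪} {M : Submodule 𝒪 Λ}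
    (hM : Stable ρ M)
    (h : ∀ g, ρ g + ((d g : 𝒪ˣ) : 𝒪) • ρ g⁻¹ = a g • (1 : End 𝒪 Λ)) (g : G) :
    restrictRep ρ M hM g + ((d g : 𝒪ˣ) : 𝒪) • restrictRep ρ M hM g⁻¹ = a g • (1 : End 𝒪 M) := by
  ext v
  have := congrArg (fun f : End 𝒪 Λ => f (v : Λ)) (h g)
  simpa using this

/-! ### Rank comparison for saturated submodules -/

theorem eq_of_le_of_finrank_le {M' M : Submodule 𝒪 Λ} (hsat' : Saturated M') (hle : M' ≤ M)
    (hrk : finrank 𝒪 M ≤ finrank 𝒪 M') : M' = M := by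
  by_contra hne
  have hlt : ¬ M ≤ M' := fun h => hne (le_antisymm hle h)
  obtain ⟨v, hvM, hvM'⟩ := Set.not_subset.mp hlt
  let b' := Module.finBasis 𝒪 M'
  let tail : Fin (finrank 𝒪 M') → M := fun i => Submodule.inclusion hle (b' i)
  have htail : LinearIndependent 𝒪 tail :=
    b'.linearIndependent.map' (Submodule.inclusion hle)
      (LinearMap.ker_eq_bot.mpr (Submodule.inclusion_injective hle))
  have hspan : ∀ y : M, y ∈ Submodule.span 𝒪 (Set.range tail) → (y : Λ) ∈ M' := by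
    intro y hy
    induction hy using Submodule.span_induction with
    | mem x hx =>
      obtain ⟨i, rfl⟩ := hx
      exact (b' i).2
    | zero => exact M'.zero_mem
    | add x y _ _ hx hy => exact M'.add_mem hx hy
    | smul c x _ hx => exact M'.smul_mem c hx
  have hli : LinearIndependent 𝒪 (Fin.cons (⟨v, hvM⟩ : M) tail) := by
    refine LinearIndependent.finCons' _ _ htail fun c y hy hcy => ?_
    by_contra hc
    apply hvM'
    refine hsat' c v hc ?_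
    have h1 : c • v = -(y : Λ) := by
      have := congrArg (fun z : M => (z : Λ)) hcy
      simp only [Submodule.coe_add, Submodule.coe_smul, Submodule.coe_zero] at this
      exact eq_neg_of_add_eq_zero_left this
    rw [h1]
    exact M'.neg_mem (hspan y hy)
  have := hli.fintype_card_le_finrank
  simp only [Fintype.card_fin] at this
  omega

/-- There is a minimal nonzero saturated stable submodule. -/
theorem exists_minimal [Nontrivial Λ] (ρ : G →* End 𝒪 Λ) :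
    ∃ M : Submodule 𝒪 Λ, M ≠ ⊥ ∧ Saturated M ∧ Stable ρ M ∧
      ∀ M' : Submodule 𝒪 Λ, M' ≠ ⊥ → Saturated M' → Stable ρ M' → M' ≤ M → M' = M := by
  classical
  let P : ℕ → Prop := fun n => ∃ M : Submodule 𝒪 Λ, M ≠ ⊥ ∧ Saturated M ∧ Stable ρ M ∧
    finrank 𝒪 M = n
  have hP : ∃ n, P n := ⟨_, ⊤, top_ne_bot, saturated_top, stable_top ρ, rfl⟩
  obtain ⟨M, hM0, hMsat, hMst, hMrk⟩ := Nat.find_spec hP
  refine ⟨M, hM0, hMsat, hMst, fun M' hM'0 hM'sat hM'st hle => ?_⟩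
  refine eq_of_le_of_finrank_le hM'sat hle ?_
  rw [hMrk]
  exact Nat.find_min' hP ⟨M', hM'0, hM'sat, hM'st, rfl⟩

/-! ### Saturated-simple representations -/

section SatSimple

variable {N : Type} [AddCommGroup N] [Module 𝒪 N] [Module.Free 𝒪 N] [Module.Finite 𝒪 N]

/-- Every nonzero saturated stable submodule is everything. -/
def SatSimple (ρN : G →* End 𝒪 N) : Prop :=
  ∀ N' : Submodule 𝒪 N, N' ≠ ⊥ → Saturated N' → Stable ρN N' → N' = ⊤

theorem satSimple_restrictRep {ρ : G →* End 𝒪 Λ} {M : Submodule 𝒪 Λ} (hsat : Saturated M)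
    (hM : Stable ρ M)
    (hmin : ∀ M' : Submodule 𝒪 Λ, M' ≠ ⊥ → Saturated M' → Stable ρ M' → M' ≤ M → M' = M) :
    SatSimple (restrictRep ρ M hM) := by
  intro N' hN'0 hN'sat hN'st
  have hmap : N'.map M.subtype = M := by
    refine hmin _ ?_ ?_ ?_ (Submodule.map_subtype_le M N')
    · intro h
      apply hN'0
      apply Submodule.map_injective_of_injective M.subtype_injective
      rw [h, Submodule.map_bot]
    · intro s v hs hv
      obtain ⟨n, hn, hnv⟩ := Submodule.mem_map.mp hv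
      have hvM : v ∈ M := hsat s v hs (by rw [← hnv]; exact n.2)
      refine Submodule.mem_map.mpr ⟨⟨v, hvM⟩, hN'sat s ⟨v, hvM⟩ hs ?_, rfl⟩
      have : s • (⟨v, hvM⟩ : M) = n := Subtype.ext (by simpa using hnv.symm)
      rw [this]; exact hn
    · intro g v hv
      obtain ⟨n, hn, rfl⟩ := Submodule.mem_map.mp hv
      exact Submodule.mem_map.mpr ⟨restrictRep ρ M hM g n, hN'st g n hn, rfl⟩
  rw [eq_top_iff]
  intro m _
  have : (m : Λ) ∈ N'.map M.subtype := by rw [hmap]; exact m.2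
  obtain ⟨n, hn, hnm⟩ := Submodule.mem_map.mp this
  have : n = m := Subtype.ext hnm
  rwa [← this]

variable (K : Type) [Field K] [Algebra 𝒪 K] [IsFractionRing 𝒪 K]

/-- The base change of a representation to the fraction field. -/
noncomputable def rhoK (ρN : G →* End 𝒪 N) : G →* End K (K ⊗[𝒪] N) :=
  ((Module.End.baseChangeHom 𝒪 K N : End 𝒪 N →ₐ[𝒪] End K (K ⊗[𝒪] N)) : End 𝒪 N →* _).comp ρN

theorem rhoK_apply (ρN : G →* End 𝒪 N) (g : G) : rhoK K ρN g = (ρN g).baseChange K := rfl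

/-- The character `d` with values in `K`. -/
noncomputable def dK (d : G →* 𝒪ˣ) : G →* Kˣ := (Units.map (algebraMap 𝒪 K : 𝒪 →* K)).comp d

theorem dK_apply (d : G →* 𝒪ˣ) (g : G) : ((dK K d g : Kˣ) : K) = algebraMap 𝒪 K (d g) := rfl

theorem rel_rhoK {ρN : G →* End 𝒪 N} {d : G →* 𝒪ˣ} {a : G → 𝒪}
    (h : ∀ g, ρN g + ((d g : 𝒪ˣ) : 𝒪) • ρN g⁻¹ = a g • (1 : End 𝒪 N)) (g : G) :
    rhoK K ρN g + ((dK K d g : Kˣ) : K) • rhoK K ρN g⁻¹ =
      algebraMap 𝒪 K (a g) • (1 : End K (K ⊗[𝒪] N)) := by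
  have := congrArg (Module.End.baseChangeHom 𝒪 K N) (h g)
  rw [map_add, map_smul, map_smul, map_one] at this
  rw [dK_apply, algebraMap_smul, algebraMap_smul]
  exact this

theorem irred_rhoK {ρN : G →* End 𝒪 N} (hss : SatSimple ρN) : Irred (rhoK K ρN) := by
  intro U hU
  by_cases hbot : U = ⊥
  · exact Or.inl hbot
  right
  let ιN : N →ₗ[𝒪] K ⊗[𝒪] N := TensorProduct.mk 𝒪 K N 1
  have hloc : IsLocalizedModule (nonZeroDivisors 𝒪) ιN :=
    (isLocalizedModule_iff_isBaseChange (nonZeroDivisors 𝒪) K ιN).mpr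
      (TensorProduct.isBaseChange 𝒪 N K)
  let N' : Submodule 𝒪 N := Submodule.comap ιN (U.restrictScalars 𝒪)
  have hmem : ∀ n : N, n ∈ N' ↔ (1 : K) ⊗ₜ[𝒪] n ∈ U := fun n => Iff.rfl
  have hN'0 : N' ≠ ⊥ := by
    obtain ⟨u, hu, hu0⟩ := (Submodule.ne_bot_iff _).mp hbot
    obtain ⟨⟨n, s⟩, hs⟩ := IsLocalizedModule.surj (nonZeroDivisors 𝒪) ιN u
    have hs' : (s : 𝒪) • u = (1 : K) ⊗ₜ[𝒪] n := hs
    refine (Submodule.ne_bot_iff _).mpr ⟨n, ?_, ?_⟩
    · rw [hmem, ← hs', ← algebraMap_smul K (s : 𝒪) u]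
      exact U.smul_mem _ hu
    · rintro rfl
      rw [TensorProduct.tmul_zero, ← algebraMap_smul K (s : 𝒪) u] at hs'
      rcases smul_eq_zero.mp hs' with h | h
      · exact nonZeroDivisors.ne_zero s.2 ((map_eq_zero_iff _ (IsFractionRing.injective 𝒪 K)).mp h)
      · exact hu0 h
  have hN'sat : Saturated N' := by
    intro s n hs hn
    rw [hmem] at hn ⊢
    have e : (1 : K) ⊗ₜ[𝒪] (s • n) = algebraMap 𝒪 K s • ((1 : K) ⊗ₜ[𝒪] n) := by
      rw [TensorProduct.tmul_smul, algebraMap_smul]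
    rw [e] at hn
    have hs' : algebraMap 𝒪 K s ≠ 0 := fun h =>
      hs ((map_eq_zero_iff _ (IsFractionRing.injective 𝒪 K)).mp h)
    have := U.smul_mem (algebraMap 𝒪 K s)⁻¹ hn
    rwa [smul_smul, inv_mul_cancel₀ hs', one_smul] at this
  have hN'st : Stable ρN N' := by
    intro g n hn
    rw [hmem] at hn ⊢
    have := hU g _ hn
    rwa [rhoK_apply, LinearMap.baseChange_tmul] at this
  have htop := hss N' hN'0 hN'sat hN'st
  rw [eq_top_iff]
  intro x _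
  clear * - htop hmem
  induction x using TensorProduct.induction_on with
  | zero => exact U.zero_mem
  | tmul k n =>
    have hn : (1 : K) ⊗ₜ[𝒪] n ∈ U := (hmem n).mp (by rw [htop]; trivial)
    have e : k ⊗ₜ[𝒪] n = k • ((1 : K) ⊗ₜ[𝒪] n) := by
      rw [TensorProduct.smul_tmul', smul_eq_mul, mul_one]
    rw [e]
    exact U.smul_mem k hn
  | add x y hx hy => exact U.add_mem hx hy

end SatSimple

/-! ### Rank one: characters -/

section RankOne

variable {N : Type} [AddCommGroup N] [Module 𝒪 N] [Module.Free 𝒪 N] [Module.Finite 𝒪 N]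

theorem smul_one_injective_of_finrank_pos (hN : 0 < finrank 𝒪 N) {x y : 𝒪}
    (h : x • (1 : End 𝒪 N) = y • 1) : x = y := by
  let b := Module.finBasis 𝒪 N
  let i : Fin (finrank 𝒪 N) := ⟨0, hN⟩
  have := congrArg (fun f : End 𝒪 N => b.repr (f (b i)) i) h
  simpa using this

/-- On a free module of rank one, a representation with the relation is a character. -/
theorem exists_char_of_finrank_one {ρN : G →* End 𝒪 N} {d : G →* 𝒪ˣ} {a : G → 𝒪}
    (h : ∀ g, ρN g + ((d g : 𝒪ˣ) : 𝒪) • ρN g⁻¹ = a g • (1 : End 𝒪 N))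
    (hN : finrank 𝒪 N = 1) :
    ∃ ψ : G →* 𝒪ˣ, (∀ g, ρN g = ((ψ g : 𝒪ˣ) : 𝒪) • (1 : End 𝒪 N)) ∧
      ∀ g, ((ψ g : 𝒪ˣ) : 𝒪) + ((d g : 𝒪ˣ) : 𝒪) * (((ψ g)⁻¹ : 𝒪ˣ) : 𝒪) = a g := by
  let b : Basis (Fin 1) 𝒪 N := Module.finBasisOfFinrankEq 𝒪 N hN
  let f : G → 𝒪 := fun g => b.repr (ρN g (b 0)) 0
  have hf : ∀ g, ρN g = f g • (1 : End 𝒪 N) := by
    intro g
    refine b.ext fun i => ?_
    have hi : i = 0 := Subsingleton.elim _ _
    subst hi
    rw [LinearMap.smul_apply, Module.End.one_apply]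
    conv_lhs => rw [← b.sum_repr (ρN g (b 0))]
    rw [Fin.sum_univ_one]
  have hpos : 0 < finrank 𝒪 N := by omega
  have hinj : ∀ x y : 𝒪, x • (1 : End 𝒪 N) = y • 1 → x = y := fun x y hxy =>
    smul_one_injective_of_finrank_pos hpos hxy
  have hf1 : f 1 = 1 := hinj _ _ (by rw [← hf, map_one, one_smul])
  have hfmul : ∀ g g', f (g * g') = f g * f g' := fun g g' => hinj _ _ (by
    rw [← hf, map_mul, hf g, hf g', smul_mul_smul_comm, mul_one])
  let ψ : G →* 𝒪ˣ := MonoidHom.toHomUnits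
    { toFun := f, map_one' := hf1, map_mul' := hfmul }
  have hψ : ∀ g, ((ψ g : 𝒪ˣ) : 𝒪) = f g := fun g => rfl
  refine ⟨ψ, fun g => by rw [hψ]; exact hf g, fun g => ?_⟩
  have hinv : (((ψ g)⁻¹ : 𝒪ˣ) : 𝒪) = f g⁻¹ := by rw [← map_inv, hψ]
  rw [hψ, hinv]
  have := h g
  rw [hf g, hf g⁻¹, smul_smul, ← add_smul] at this
  exact hinj _ _ this

/-- A vector of `𝒪ⁿ` all of whose coordinates lie in `I` lies in `I • ⊤`. -/
theorem pi_mem_smul_top {n : ℕ} (I : Ideal 𝒪) (w : Fin n → 𝒪) (hw : ∀ i, w i ∈ I) :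
    w ∈ I • (⊤ : Submodule 𝒪 (Fin n → 𝒪)) := by
  have : w = ∑ i, w i • (Pi.single i (1 : 𝒪) : Fin n → 𝒪) := by
    ext j
    simp [Finset.sum_apply, Pi.single_apply]
  rw [this]
  exact Submodule.sum_mem _ fun i _ => Submodule.smul_mem_smul (hw i) Submodule.mem_top

/-- The diagonal representation `ψ₀ ⊕ ψ₁` on `𝒪²`. -/
noncomputable def diagRep (ψ₀ ψ₁ : G →* 𝒪ˣ) : G →* End 𝒪 (Fin 2 → 𝒪) where
  toFun g := Matrix.toLin' (Matrix.diagonal ![((ψ₀ g : 𝒪ˣ) : 𝒪), ((ψ₁ g : 𝒪ˣ) : 𝒪)])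
  map_one' := by
    have : (![((1 : 𝒪ˣ) : 𝒪), ((1 : 𝒪ˣ) : 𝒪)] : Fin 2 → 𝒪) = fun _ => 1 := by
      ext i; fin_cases i <;> simp
    rw [map_one, map_one, this, Matrix.diagonal_one, Matrix.toLin'_one]
    rfl
  map_mul' g g' := by
    rw [map_mul, map_mul, Module.End.mul_eq_comp, ← Matrix.toLin'_mul,
      Matrix.diagonal_mul_diagonal]
    congr 2
    ext i; fin_cases i <;> simp

theorem diagRep_apply (ψ₀ ψ₁ : G →* 𝒪ˣ) (g : G) (v : Fin 2 → 𝒪) (i : Fin 2) :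
    diagRep ψ₀ ψ₁ g v i = (![((ψ₀ g : 𝒪ˣ) : 𝒪), ((ψ₁ g : 𝒪ˣ) : 𝒪)] : Fin 2 → 𝒪) i * v i := by
  simp [diagRep, Matrix.toLin'_apply, Matrix.mulVec_diagonal]

theorem charpoly_diagRep (ψ₀ ψ₁ : G →* 𝒪ˣ) (g : G) :
    (diagRep ψ₀ ψ₁ g).charpoly =
      X ^ 2 - C (((ψ₀ g : 𝒪ˣ) : 𝒪) + ((ψ₁ g : 𝒪ˣ) : 𝒪)) * X +
        C (((ψ₀ g : 𝒪ˣ) : 𝒪) * ((ψ₁ g : 𝒪ˣ) : 𝒪)) := by
  have h1 : LinearMap.toMatrix (Pi.basisFun 𝒪 (Fin 2)) (Pi.basisFun 𝒪 (Fin 2)) (diagRep ψ₀ ψ₁ g) =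
      Matrix.diagonal ![((ψ₀ g : 𝒪ˣ) : 𝒪), ((ψ₁ g : 𝒪ˣ) : 𝒪)] := by
    rw [LinearMap.toMatrix_eq_toMatrix']
    exact LinearMap.toMatrix'_toLin' _
  rw [← LinearMap.charpoly_toMatrix (diagRep ψ₀ ψ₁ g) (Pi.basisFun 𝒪 (Fin 2)), h1,
    Matrix.charpoly_fin_two, Matrix.trace_fin_two, Matrix.det_fin_two]
  simp

theorem endCongr_diagRep (ψ₀ ψ₁ : G →* 𝒪ˣ) (I : Ideal 𝒪) (g : G)
    (h₀ : ((ψ₀ g : 𝒪ˣ) : 𝒪) - 1 ∈ I) (h₁ : ((ψ₁ g : 𝒪ˣ) : 𝒪) - 1 ∈ I) :
    EndCongr I (diagRep ψ₀ ψ₁ g) 1 := by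
  intro v
  refine pi_mem_smul_top I _ fun i => ?_
  rw [Pi.sub_apply, diagRep_apply, Module.End.one_apply]
  have e : (![((ψ₀ g : 𝒪ˣ) : 𝒪), ((ψ₁ g : 𝒪ˣ) : 𝒪)] : Fin 2 → 𝒪) i * v i - v i =
      ((![((ψ₀ g : 𝒪ˣ) : 𝒪), ((ψ₁ g : 𝒪ˣ) : 𝒪)] : Fin 2 → 𝒪) i - 1) * v i := by ring
  rw [e]
  refine I.mul_mem_right _ ?_
  fin_cases i
  · simpa using h₀
  · simpa using h₁

end RankOne

/-! ### (ALG-CORE) -/

section Main

variable {ρ : G →* End 𝒪 Λ} {d : G →* 𝒪ˣ} {a : G → 𝒪} {c : G}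

/-- **(ALG-CORE).** -/
theorem exists_rankTwo [Nontrivial Λ] (h2 : (2 : 𝒪) ≠ 0)
    (h : ∀ g, ρ g + ((d g : 𝒪ˣ) : 𝒪) • ρ g⁻¹ = a g • (1 : End 𝒪 Λ))
    (hc2 : c * c = 1) (hdc : ((d c : 𝒪ˣ) : 𝒪) = -1) :
    ∃ (Λ' : Type) (_ : AddCommGroup Λ') (_ : Module 𝒪 Λ') (_ : Module.Free 𝒪 Λ')
      (_ : Module.Finite 𝒪 Λ') (ρ' : G →* End 𝒪 Λ'),
      finrank 𝒪 Λ' = 2 ∧
      (∀ g, (ρ' g).charpoly = X ^ 2 - C (a g) * X + C (((d g : 𝒪ˣ) : 𝒪))) ∧
      ∀ (I : Ideal 𝒪) (g : G), EndCongr I (ρ g) 1 → ((d g : 𝒪ˣ) : 𝒪) - 1 ∈ I →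
        EndCongr I (ρ' g) 1 := by
  obtain ⟨M, hM0, hMsat, hMst, hMmin⟩ := exists_minimal ρ
  let K := FractionRing 𝒪
  let ρM := restrictRep ρ M hMst
  have hρM : ∀ g, ρM g + ((d g : 𝒪ˣ) : 𝒪) • ρM g⁻¹ = a g • (1 : End 𝒪 M) := rel_restrictRep hMst h
  have hss : SatSimple ρM := satSimple_restrictRep hMsat hMst hMmin
  have hirr := irred_rhoK K hss
  have hK := rel_rhoK K hρM
  have hinjK : Function.Injective (algebraMap 𝒪 K) := IsFractionRing.injective 𝒪 K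
  have h2K : (2 : K) ≠ 0 := by
    have : (2 : K) = algebraMap 𝒪 K 2 := (map_ofNat (algebraMap 𝒪 K) 2).symm
    rw [this]
    exact fun h0 => h2 ((map_eq_zero_iff _ hinjK).mp h0)
  have hdcK : ((dK K d c : Kˣ) : K) = -1 := by rw [dK_apply, hdc, map_neg, map_one]
  have hrk : finrank K (K ⊗[𝒪] M) = finrank 𝒪 M := Module.finrank_baseChange
  have hle : finrank 𝒪 M ≤ 2 := by
    rw [← hrk]
    exact finrank_le_two_of_irred h2K hK hc2 hdcK hirr
  have hpos : 0 < finrank 𝒪 M := by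
    have : Nontrivial M := by
      obtain ⟨v, hv, hv0⟩ := (Submodule.ne_bot_iff _).mp hM0
      exact ⟨⟨⟨v, hv⟩, 0, fun h => hv0 (congrArg Subtype.val h)⟩⟩
    exact Module.finrank_pos
  have hcases : finrank 𝒪 M = 2 ∨ finrank 𝒪 M = 1 := by omega
  rcases hcases with h2r | h1r
  · -- rank two: `Λ' = M`
    refine ⟨M, inferInstance, inferInstance, inferInstance, inferInstance, ρM, h2r, fun g => ?_,
      fun I g hg _ => endCongr_restrictRep hMsat hMst I g hg⟩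
    have e1 : (rhoK K ρM g).charpoly = (ρM g).charpoly.map (algebraMap 𝒪 K) :=
      LinearMap.charpoly_baseChange (ρM g) K
    have e2 := charpoly_eq_of_irred h2K hK hc2 hdcK hirr (hrk.trans h2r) g
    apply Polynomial.map_injective _ hinjK
    rw [← e1, e2, dK_apply]
    simp
  · -- rank one: `Λ' = 𝒪²` with `ψ ⊕ d ψ⁻¹`
    obtain ⟨ψ, hψ, hψa⟩ := exists_char_of_finrank_one hρM h1r
    refine ⟨Fin 2 → 𝒪, inferInstance, inferInstance, inferInstance, inferInstance,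
      diagRep ψ (d * ψ⁻¹), by simp, fun g => ?_, fun I g hg hdg => ?_⟩
    · rw [charpoly_diagRep]
      have e1 : ((ψ g : 𝒪ˣ) : 𝒪) + (((d * ψ⁻¹) g : 𝒪ˣ) : 𝒪) = a g := by
        rw [← hψa g]; simp
      have e2 : ((ψ g : 𝒪ˣ) : 𝒪) * (((d * ψ⁻¹) g : 𝒪ˣ) : 𝒪) = ((d g : 𝒪ˣ) : 𝒪) := by
        simp only [MonoidHom.mul_apply, MonoidHom.inv_apply, Units.val_mul]
        rw [mul_left_comm, Units.mul_inv, mul_one]
      rw [e1, e2]
    · have hMg := endCongr_restrictRep hMsat hMst I g hg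
      -- `ψ g ≡ 1`
      have hψ1 : ((ψ g : 𝒪ˣ) : 𝒪) - 1 ∈ I := by
        let b := Module.finBasis 𝒪 M
        let i : Fin (finrank 𝒪 M) := ⟨0, hpos⟩
        have := repr_mem_of_mem_smul_top b I (hMg (b i)) i
        rw [hψ g] at this
        simpa [sub_mul] using this
      have hψinv : (((ψ g)⁻¹ : 𝒪ˣ) : 𝒪) - 1 ∈ I := by
        have e : (((ψ g)⁻¹ : 𝒪ˣ) : 𝒪) - 1 =
            -((((ψ g)⁻¹ : 𝒪ˣ) : 𝒪) * (((ψ g : 𝒪ˣ) : 𝒪) - 1)) := by
          rw [mul_sub, Units.inv_mul, mul_one]; ring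
        rw [e]
        exact I.neg_mem (I.mul_mem_left _ hψ1)
      refine endCongr_diagRep ψ (d * ψ⁻¹) I g hψ1 ?_
      have e : (((d * ψ⁻¹) g : 𝒪ˣ) : 𝒪) - 1 =
          ((d g : 𝒪ˣ) : 𝒪) * ((((ψ g)⁻¹ : 𝒪ˣ) : 𝒪) - 1) + (((d g : 𝒪ˣ) : 𝒪) - 1) := by
        simp only [MonoidHom.mul_apply, MonoidHom.inv_apply, Units.val_mul]
        ring
      rw [e]
      exact I.add_mem (I.mul_mem_left _ hψinv) hdg

end Main

end Fermat.Agent.ES.ALG.RankTwo9
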